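import Fermat.Agent.H9.E6.TwoChart
import Fermat.Agent.H22.ES.KLModel
import Fermat.Agent.H66.ESD.GaussRing
import Fermat.Prelude.Def_ModularCurve_X0ModL
import Fermat.Prelude.Def_AlgebraicCurve_Repartitions

/-!
# E6 : unconditional genus inequality `g_L ≤ g_k` — interfaces (helper9)

`L = ℚ̄`, `A` a valuation subring of `L` over `ℓ ∤ N`, `k` its residue field,
`F_L = modularFunctionFieldBar N`, `F_k = modularFunctionFieldFullC k N`.

ROUTE.  Fix a number field `K₁ ⊆ ℚ̄` (containing the roots of unity needed by the branch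
hypotheses), `A₁ = A ∩ K₁` (a discrete valuation ring), `k₁` its (finite) residue field,
`E₁ = ModelField K₁ N ⊆ K₁((q))`, `x = j`.

1. `TwoChartLiftStatement` (E6a, landed): for `m ≥ m₀` every `y ∈ C` which is integral over
   `A₁[x]` modulo `ϖ C` and with `x⁻ᵐ y` integral over `A₁[x⁻¹]` modulo `ϖ C` is congruent modulo
   `ϖ C` to an `f ∈ B(x)` with `x⁻ᵐ f ∈ B(x⁻¹)`.
2. `ModelGaussStatement` : the Gauss closure `C` is the Gauss ring (`q`-expansion principle).
3. `ModelRedSurjStatement` : the Gauss ring of `E₁` reduces onto `F_{k₁}`.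
4. `SpecialFibreDescentStatement` : every element of `F_k` which is integral over `k[x̄]` (and
   `x̄⁻ᵐ ·` it over `k[x̄⁻¹]`) is a `k`-linear combination of elements of `F_{k₁}` with the same
   property over `k₁`.
5. `PoleDictStatement` : Riemann-Roch spaces of multiples of the pole divisor of `x` in terms of
   integrality in the two charts.
Assembly (`Fermat.Agent.H9.E6.Assembly`): `dim_k L_k(m (x̄)_∞) ≤ dim_L L_L(m (x)_∞)` and Riemann.
-/

set_option autoImplicit false

noncomputable section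

namespace Fermat.Agent.H9.E6

open Polynomial ModularCurve AlgebraicCurve IntermediateField
open Fermat.Agent.H22.KL
open Fermat.Agent.H66 (vGaussRing vGaussRed)

/-- `y` is integral over `K[x]` inside `K((q))`. -/
def IntL (K : Type) [Field K] (x y : LaurentSeries K) : Prop :=
  ((Polynomial.aeval x : K[X] →ₐ[K] LaurentSeries K) : K[X] →+* LaurentSeries K).IsIntegralElem y

/-- The algebra structure of a valuation subring `A₁` of `K₁` on the model field. -/
@[reducible] def modelAlgebra (K₁ : Type) [Field K₁] [Algebra ℚ K₁] (A₁ : ValuationSubring K₁)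
    (N : ℕ) : Algebra ↥A₁ (ModelField K₁ N) :=
  ((algebraMap K₁ (ModelField K₁ N)).comp (algebraMap ↥A₁ K₁)).toAlgebra

theorem modelAlgebra_isScalarTower (K₁ : Type) [Field K₁] [Algebra ℚ K₁]
    (A₁ : ValuationSubring K₁) (N : ℕ) :
    letI := modelAlgebra K₁ A₁ N
    IsScalarTower ↥A₁ K₁ (ModelField K₁ N) := by
  letI := modelAlgebra K₁ A₁ N
  exact IsScalarTower.of_algebraMap_eq fun _ => rfl

/-- **E6-DESC (special fibre descent).**  `k` algebraically closed, algebraic over the finite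
field `k₁`; `X ∈ k₁((q))` a coordinate.  Every `y ∈ F_k` with `y` integral over `k[x̄]` and
`x̄⁻ᵐ y` integral over `k[x̄⁻¹]` is a `k`-linear combination of (images of) elements
`z ∈ F_{k₁}` with `z` integral over `k₁[X]` and `X⁻ᵐ z` integral over `k₁[X⁻¹]`.
(Proof: coefficientwise Frobenius `Φ`; `y` is fixed by some `Φ^r`; `z_i = ∑_{s<r} Φ^s (b_i y)`
for a basis `b_i` of `𝔽_{q^r}` over `k₁`, `y = ∑ c_i z_i` for the trace-dual basis `c_i`;
`Φ`-fixed elements of `F_k` come from `F_{k₁}`.) -/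
def SpecialFibreDescentStatement : Prop :=
  ∀ (N : ℕ) [NeZero N] (k₁ k : Type) [Field k₁] [Finite k₁] [Field k] [IsAlgClosed k]
    [Algebra k₁ k] [Algebra.IsAlgebraic k₁ k] (X : LaurentSeries k₁) (m : ℕ)
    (y : LaurentSeries k),
    y ∈ modularFunctionFieldFullC k N →
    IntL k (coeffMap (algebraMap k₁ k) X) y →
    IntL k (coeffMap (algebraMap k₁ k) X)⁻¹ ((coeffMap (algebraMap k₁ k) X)⁻¹ ^ m * y) →
    ∃ (n : ℕ) (c : Fin n → k) (z : Fin n → LaurentSeries k₁),
      y = ∑ i, algebraMap k (LaurentSeries k) (c i) * coeffMap (algebraMap k₁ k) (z i) ∧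
      ∀ i, z i ∈ modularFunctionFieldFullC k₁ N ∧
        IntL k₁ X (z i) ∧ IntL k₁ X⁻¹ (X⁻¹ ^ m * z i)

/-- **E6-SURJ (the Gauss ring of the model reduces onto `F_{k₁}`).**  Any field `K₁ ⊇ ℚ`, any
valuation subring. -/
def ModelRedSurjStatement : Prop :=
  ∀ (N : ℕ) [NeZero N] (K₁ : Type) [Field K₁] [Algebra ℚ K₁] (A₁ : ValuationSubring K₁),
    ∀ z ∈ modularFunctionFieldFullC (IsLocalRing.ResidueField ↥A₁) N,
      ∃ (y : LaurentSeries K₁) (_ : y ∈ laurentBaseChange K₁ (modularFunctionFieldFull N))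
        (hy : y ∈ vGaussRing A₁), vGaussRed A₁ ⟨y, hy⟩ = z

/-- **E6-GAUSS (Gauss closure = Gauss ring).**  In the model over a number field `K₁`, with
`A₁` a discrete valuation subring over `ℓ` and `x = j`: an element of `E₁` lies in the Gauss
closure `C(x)` iff its `q`-expansion lies in the Gauss ring of `K₁((q))`. -/
def ModelGaussStatement (N ℓ : ℕ) (x₀ : LaurentSeries ℚ) : Prop :=
  ∀ (K₁ : Type) [Field K₁] [Algebra ℚ K₁] [FiniteDimensional ℚ K₁]
    (A₁ : ValuationSubring K₁) [IsDiscreteValuationRing ↥A₁],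
    ¬ IsUnit ((ℓ : ℕ) : ↥A₁) → ∀ (ϖ : ↥A₁), Irreducible ϖ →
    letI := modelAlgebra K₁ A₁ N
    ∀ (x : ModelField K₁ N), (x : LaurentSeries K₁) = coeffEmb K₁ x₀ →
    ∀ y : ModelField K₁ N,
      y ∈ gaussClosure ↥A₁ (ModelField K₁ N) ϖ x ↔ (y : LaurentSeries K₁) ∈ vGaussRing A₁

/-- **E6-DICT (pole divisor dictionary).**  `K` algebraically closed, `x ∈ F` separating of
finite degree.  There is a divisor `B` (the pole divisor of `x`) of degree `[F : K(x)]` such that
`L(m B)` is the set of all `f` integral over `K[x]` with `x⁻ᵐ f` integral over `K[x⁻¹]`. -/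
def PoleDictStatement : Prop :=
  ∀ (K F : Type) [Field K] [IsAlgClosed K] [Field F] [Algebra K F] (x : F),
    Transcendental K x → FiniteDimensional K⟮x⟯ F → Algebra.IsSeparable K⟮x⟯ F →
    ∃ B : Divisor K F, Divisor.degree B = (Module.finrank K⟮x⟯ F : ℤ) ∧
      ∀ (m : ℕ) (f : F), f ∈ riemannRochSpace (m • B) ↔
        (IsIntegral (Algebra.adjoin K {x}) f ∧
          IsIntegral (Algebra.adjoin K {x⁻¹}) (x⁻¹ ^ m * f))

end Fermat.Agent.H9.E6

end
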