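import Fermat.Agent.H9.E6.Interfaces2
import Fermat.Agent.H66.ESD.GaussRing

/-!
# E6 : compatibility of Gauss rings under base change, kernel of the reduction (helper9)

`ι : K₁ → L`, `A` a valuation subring of `L`, `A₁ = A.comap ι`.
* `coeffMap_mem_vGaussRing`, `vGaussRed_coeffMap` : coefficientwise base change maps the Gauss
  ring of `K₁((q))` into the Gauss ring of `L((q))`, compatibly with the reductions.
* `exists_eq_mul_of_vGaussRed_eq_zero` : over a discrete valuation ring, the kernel of the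
  reduction is generated by the uniformiser.
-/

set_option autoImplicit false

noncomputable section

namespace Fermat.Agent.H9.E6

open ModularCurve
open Fermat.Agent.H66

section BaseChange

variable {K₁ L : Type} [Field K₁] [Field L] (ι : K₁ →+* L) (A : ValuationSubring L)

theorem vIota_coeffMap_comapHom (a : LaurentSeries ↥(A.comap ι)) :
    vIota A (coeffMap (comapHom ι A) a) = coeffMap ι (vIota (A.comap ι) a) := by
  refine HahnSeries.ext (funext fun m => ?_)
  rfl

theorem vRho_coeffMap_comapHom (a : LaurentSeries ↥(A.comap ι)) :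
    vRho A (coeffMap (comapHom ι A) a) = coeffMap (resMap ι A) (vRho (A.comap ι) a) := by
  refine HahnSeries.ext (funext fun m => ?_)
  show IsLocalRing.residue _ (comapHom ι A (a.coeff m)) =
    resMap ι A (IsLocalRing.residue _ (a.coeff m))
  rw [resMap_residue]

theorem coeffMap_injective {R S : Type*} [CommRing R] [CommRing S] (f : R →+* S)
    (hf : Function.Injective f) : Function.Injective (coeffMap f) := by
  intro a b h
  refine HahnSeries.ext (funext fun m => ?_)
  have h1 := congrArg (fun x : LaurentSeries S => x.coeff m) h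
  simp only [coeffMap_coeff] at h1
  exact hf h1

theorem coeffMap_resMap_injective : Function.Injective (coeffMap (resMap ι A)) :=
  coeffMap_injective _ (resMap ι A).injective

/-- Base change maps the Gauss ring into the Gauss ring. -/
theorem coeffMap_mem_vGaussRing {y : LaurentSeries K₁} (hy : y ∈ vGaussRing (A.comap ι)) :
    coeffMap ι y ∈ vGaussRing A := by
  obtain ⟨a, b, hb, hab⟩ := hy
  refine ⟨coeffMap (comapHom ι A) a, coeffMap (comapHom ι A) b, ?_, ?_⟩
  · rw [vRho_coeffMap_comapHom]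
    intro h0
    apply hb
    apply coeffMap_resMap_injective ι A
    rw [h0, map_zero]
  · rw [vIota_coeffMap_comapHom, vIota_coeffMap_comapHom, ← map_mul, hab]

/-- Base change is compatible with the reduction maps. -/
theorem vGaussRed_coeffMap {y : LaurentSeries K₁} (hy : y ∈ vGaussRing (A.comap ι)) :
    vGaussRed A ⟨coeffMap ι y, coeffMap_mem_vGaussRing ι A hy⟩ =
      coeffMap (resMap ι A) (vGaussRed (A.comap ι) ⟨y, hy⟩) := by
  obtain ⟨a, b, hb, hab⟩ := hy
  have hb' : vRho A (coeffMap (comapHom ι A) b) ≠ 0 := by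
    rw [vRho_coeffMap_comapHom]
    intro h0
    apply hb
    apply coeffMap_resMap_injective ι A
    rw [h0, map_zero]
  have hab' : coeffMap ι y * vIota A (coeffMap (comapHom ι A) b) =
      vIota A (coeffMap (comapHom ι A) a) := by
    rw [vIota_coeffMap_comapHom, vIota_coeffMap_comapHom, ← map_mul, hab]
  have e1 := vGaussRed_eq A ⟨coeffMap ι y, coeffMap_mem_vGaussRing ι A ⟨a, b, hb, hab⟩⟩ _ _
    hb' hab'
  have e2 := vGaussRed_eq (A.comap ι) ⟨y, ⟨a, b, hb, hab⟩⟩ a b hb hab
  rw [e1, e2, vRho_coeffMap_comapHom, vRho_coeffMap_comapHom]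
  exact (map_div₀ (coeffMap (resMap ι A)) _ _).symm

end BaseChange

section Kernel

variable {K₁ : Type} [Field K₁] (A₁ : ValuationSubring K₁)

open Classical in
/-- division by `ϖ` as a zero-preserving map -/
def divPi (ϖ : ↥A₁) : ZeroHom ↥A₁ ↥A₁ where
  toFun x := if x = 0 then 0 else if h : ϖ ∣ x then Classical.choose h else 0
  map_zero' := if_pos rfl

theorem mul_divPi (ϖ : ↥A₁) {x : ↥A₁} (h : ϖ ∣ x) : ϖ * divPi A₁ ϖ x = x := by
  classical
  show ϖ * (if x = 0 then 0 else if h : ϖ ∣ x then Classical.choose h else 0) = x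
  by_cases hx : x = 0
  · rw [if_pos hx, mul_zero, hx]
  · rw [if_neg hx, dif_pos h]
    exact (Classical.choose_spec h).symm

/-- Over a discrete valuation ring, an element of the Gauss ring with reduction `0` is `ϖ` times
an element of the Gauss ring. -/
theorem exists_eq_mul_of_vGaussRed_eq_zero [IsDiscreteValuationRing ↥A₁] {ϖ : ↥A₁}
    (hϖ : Irreducible ϖ) (y : vGaussRing A₁) (hy : vGaussRed A₁ y = 0) :
    ∃ y' ∈ vGaussRing A₁,
      (y : LaurentSeries K₁) = algebraMap K₁ (LaurentSeries K₁) (ϖ : K₁) * y' := by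
  obtain ⟨a, b, hb, ha, hab⟩ := (vGaussRed_eq_zero_iff A₁ y).1 hy
  have hdvd : ∀ m : ℤ, ϖ ∣ a.coeff m := by
    intro m
    have h1 : IsLocalRing.residue ↥A₁ (a.coeff m) = 0 := by
      rw [← vRho_coeff, ha]
      rfl
    have h2 : a.coeff m ∈ IsLocalRing.maximalIdeal ↥A₁ :=
      (IsLocalRing.residue_eq_zero_iff _).1 h1
    rw [hϖ.maximalIdeal_eq, Ideal.mem_span_singleton] at h2
    exact h2
  have hϖ0 : (ϖ : K₁) ≠ 0 := by
    intro h0
    exact hϖ.ne_zero (Subtype.ext h0)
  have hC0 : algebraMap K₁ (LaurentSeries K₁) (ϖ : K₁) ≠ 0 :=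
    (map_ne_zero (algebraMap K₁ (LaurentSeries K₁))).2 hϖ0
  have ha' : vIota A₁ a =
      algebraMap K₁ (LaurentSeries K₁) (ϖ : K₁) * vIota A₁ (a.map (divPi A₁ ϖ)) := by
    refine HahnSeries.ext (funext fun m => ?_)
    rw [coeff_algebraMap_mul, vIota_coeff, vIota_coeff, HahnSeries.map_coeff]
    have := mul_divPi A₁ ϖ (hdvd m)
    exact_mod_cast congrArg Subtype.val this.symm
  have hb0 : vIota A₁ b ≠ 0 := vIota_ne_zero_of_vRho_ne_zero A₁ hb
  refine ⟨(y : LaurentSeries K₁) * (algebraMap K₁ (LaurentSeries K₁) (ϖ : K₁))⁻¹,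
    ⟨a.map (divPi A₁ ϖ), b, hb, ?_⟩, ?_⟩
  · have e : (y : LaurentSeries K₁) * (algebraMap K₁ (LaurentSeries K₁) (ϖ : K₁))⁻¹ * vIota A₁ b
        = (algebraMap K₁ (LaurentSeries K₁) (ϖ : K₁))⁻¹ * ((y : LaurentSeries K₁) * vIota A₁ b) := by
      ring
    rw [e, hab, ha', ← mul_assoc, inv_mul_cancel₀ hC0, one_mul]
  · rw [mul_comm ((y : LaurentSeries K₁)) _, ← mul_assoc, mul_inv_cancel₀ hC0, one_mul]

end Kernel

end Fermat.Agent.H9.E6

end
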