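import Fermat.Agent.H9.E6.TwoChart
import Fermat.Agent.H34.KL.LemmaT
import Fermat.Agent.H85.KLChart
import Fermat.Agent.H89.KLGauss

/-!
# E6a : the two-chart lift, conditional only on the tame normality statement (helper9)
-/

set_option autoImplicit false

namespace Fermat.Agent.H9.E6

open Fermat.Agent.H91.KLNorm (NormalityAtFullStatement NormalityFullStatement)

/-- full normality in the chart `x` from the local statement. -/
theorem normalityFull (hN : NormalityAtFullStatement) : NormalityFullStatement :=
  normalityFull_of_normalityAtFull hN Fermat.Agent.H89.gaussClosureStatement

/-- full normality in the chart at infinity from the local statement. -/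
theorem normalityInfFull (hN : NormalityAtFullStatement) : NormalityInfFullStatement :=
  normalityInfFull_of_normalityAtFull hN Fermat.Agent.H89.gaussClosureStatement
    Fermat.Agent.H89.goodBasisInvStatement

/-- **E6a**: the two-chart lift, conditional only on `NormalityAtFullStatement`. -/
theorem twoChartLift (hN : NormalityAtFullStatement) : TwoChartLiftStatement :=
  twoChartLift_of_normalityAtFull hN Fermat.Agent.H34.lemmaT
    Fermat.Agent.H89.gaussClosureStatement
    Fermat.Agent.H89.goodBasisInvStatement
    Fermat.Agent.H85.chartBasics

end Fermat.Agent.H9.E6
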