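import Fermat.Agent.H9.E6.ModelLift
import Fermat.Agent.H93.KL.DescInterfaces

/-!
# E6 : transport from the model over `K₁` to `F_L` (helper9)

* `transport_gauss` : base change `klBc ι` maps the Gauss subring of the model field into the
  Gauss ring of `L((q))`, compatibly with reductions.
* `transport_integral` : chart integrality over `A₁[x]` gives integrality over `ℚ̄[x]`.
-/

set_option autoImplicit false
set_option linter.unusedSectionVars false

noncomputable section

namespace Fermat.Agent.H9.E6

open Polynomial ModularCurve
open Fermat.Agent.H22.KL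
open Fermat.Agent.H66
open Fermat.Agent.H87.KL (evX)
open Fermat.Agent.H93.KL (klBc QBar)

variable {K₁ : Type} [Field K₁] [Algebra ℚ K₁] (ι : K₁ →+* QBar) (A : ValuationSubring QBar)
  (N : ℕ)

/-- base change of an element of the Gauss subring lies in the Gauss ring -/
theorem transport_mem (f : ↥(gaussSub (A.comap ι) N)) :
    ((klBc ι (modularFunctionFieldFull N) (f : ModelField K₁ N) :
      ↥(laurentBaseChange QBar (modularFunctionFieldFull N))) : LaurentSeries QBar) ∈
      vGaussRing A :=
  coeffMap_mem_vGaussRing ι A f.2

/-- base change is compatible with the reductions -/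
theorem transport_red (f : ↥(gaussSub (A.comap ι) N)) :
    vGaussRed A ⟨_, transport_mem ι A N f⟩ =
      coeffMap (resMap ι A) (gaussRedSub (A.comap ι) N f) :=
  vGaussRed_coeffMap ι A f.2

/-- the ring homomorphism `A₁ → ℚ̄` -/
def constHom : ↥(A.comap ι) →+* QBar := ι.comp (A.comap ι).subtype

theorem klBc_comp_evX (x : ModelField K₁ N) :
    letI := modelAlgebra K₁ (A.comap ι) N
    (klBc ι (modularFunctionFieldFull N)).comp (evX (A := ↥(A.comap ι)) x) =
      ((aeval (klBc ι (modularFunctionFieldFull N) x) :
          QBar[X] →ₐ[QBar] ↥(laurentBaseChange QBar (modularFunctionFieldFull N))) :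
        QBar[X] →+* ↥(laurentBaseChange QBar (modularFunctionFieldFull N))).comp
        (Polynomial.mapRingHom (constHom ι A)) := by
  letI := modelAlgebra K₁ (A.comap ι) N
  refine Polynomial.ringHom_ext (fun a => ?_) ?_
  · simp only [RingHom.comp_apply, Polynomial.coe_mapRingHom, Polynomial.map_C]
    rw [Fermat.Agent.H87.KL.evX_apply, aeval_C]
    simp only [RingHom.coe_coe, aeval_C]
    apply Subtype.ext
    show coeffMap ι (algebraMap K₁ (LaurentSeries K₁) (a : K₁)) =
      algebraMap QBar (LaurentSeries QBar) (ι (a : K₁))
    rw [algebraMap_laurentSeries_eq_single, coeffMap_single, algebraMap_laurentSeries_eq_single]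
  · simp only [RingHom.comp_apply, Polynomial.coe_mapRingHom, Polynomial.map_X]
    rw [Fermat.Agent.H87.KL.evX_apply, aeval_X]
    simp only [RingHom.coe_coe, aeval_X]

/-- chart integrality over `A₁[x]` gives integrality over `ℚ̄[x]` after base change -/
theorem transport_integral (x f : ModelField K₁ N)
    (hf : letI := modelAlgebra K₁ (A.comap ι) N
      f ∈ chartClosure ↥(A.comap ι) (ModelField K₁ N) x) :
    IsIntegral (Algebra.adjoin QBar {klBc ι (modularFunctionFieldFull N) x})
      (klBc ι (modularFunctionFieldFull N) f) := by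
  letI := modelAlgebra K₁ (A.comap ι) N
  rw [isIntegral_adjoin_singleton_iff]
  have h1 := (Fermat.Agent.H87.KL.mem_chartClosure_iff (A := ↥(A.comap ι)) x f).1 hf
  exact isIntegralElem_map_of_comm _ _ (Polynomial.mapRingHom (constHom ι A))
    (klBc ι (modularFunctionFieldFull N)) (klBc_comp_evX ι A N x) h1

end Fermat.Agent.H9.E6

end
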