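import Fermat.Agent.H9.E6.Interfaces3

/-!
# E6 : interfaces, part 4 — a general coordinate (helper9)

The coordinate is given by an integral `q`-expansion `xZ : LaurentSeries ℤ`
(`jqModC ℤ`, `t2S ℤ`, `t3 ℤ`); over a ring `R` it is `coeffMap (Int.castRingHom R) xZ`.

* `LiftAt N A xL xk` : the lifting property for the coordinates `xL ∈ F_L`, `xk ∈ F_k`.
* `CountStatement` : the lifting property and the degree inequality
  `[F_L : L(xL)] ≤ [F_k : k(xk)]` give `g_L ≤ g_k`.
* `ModelGaussGenStatement` : Gauss closure = Gauss ring for a general coordinate, from the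
  `q`-expansion principle.
-/

set_option autoImplicit false

noncomputable section

namespace Fermat.Agent.H9.E6

open Polynomial ModularCurve AlgebraicCurve IntermediateField
open Fermat.Agent.H22.KL
open Fermat.Agent.H66 (vGaussRing vGaussRed)

/-- **LIFT** at `(N, A)` for the coordinates `xL ∈ F_L`, `xk ∈ F_k`: for `m ≥ m₀` every
`y ∈ F_k` integral over `k[xk]` with `xk⁻ᵐ y` integral over `k[xk⁻¹]` is the reduction of some
`u ∈ F_L` in the Gauss ring, integral over `ℚ̄[xL]` with `xL⁻ᵐ u` integral over `ℚ̄[xL⁻¹]`. -/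
def LiftAt (N : ℕ) [NeZero N] (A : ValuationSubring (AlgebraicClosure ℚ))
    (xL : ↥(modularFunctionFieldBar N))
    (xk : ↥(modularFunctionFieldFullC (IsLocalRing.ResidueField ↥A) N)) : Prop :=
  ∃ m₀ : ℕ, ∀ m : ℕ, m₀ ≤ m →
    ∀ y : ↥(modularFunctionFieldFullC (IsLocalRing.ResidueField ↥A) N),
      IsIntegral (Algebra.adjoin (IsLocalRing.ResidueField ↥A) {xk}) y →
      IsIntegral (Algebra.adjoin (IsLocalRing.ResidueField ↥A) {xk⁻¹}) (xk⁻¹ ^ m * y) →
      ∃ (u : ↥(modularFunctionFieldBar N))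
        (hu : (u : LaurentSeries (AlgebraicClosure ℚ)) ∈ vGaussRing A),
        vGaussRed A ⟨(u : LaurentSeries (AlgebraicClosure ℚ)), hu⟩ =
          (y : LaurentSeries (IsLocalRing.ResidueField ↥A)) ∧
        IsIntegral (Algebra.adjoin (AlgebraicClosure ℚ) {xL}) u ∧
        IsIntegral (Algebra.adjoin (AlgebraicClosure ℚ) {xL⁻¹}) (xL⁻¹ ^ m * u)

/-- **COUNT**, general coordinate: the lifting property together with
`[F_L : L(xL)] ≤ [F_k : k(xk)]` gives `g_L ≤ g_k`. -/
def CountStatement : Prop :=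
  ∀ (N : ℕ) [NeZero N] (ℓ : ℕ) [Fact ℓ.Prime], ¬ ℓ ∣ N →
    ∀ (A : ValuationSubring (AlgebraicClosure ℚ)), A.LiesOverPrime ℓ →
    ∀ (xL : ↥(modularFunctionFieldBar N))
      (xk : ↥(modularFunctionFieldFullC (IsLocalRing.ResidueField ↥A) N)),
      Transcendental (AlgebraicClosure ℚ) xL →
      FiniteDimensional (AlgebraicClosure ℚ)⟮xL⟯ ↥(modularFunctionFieldBar N) →
      Transcendental (IsLocalRing.ResidueField ↥A) xk →
      FiniteDimensional (IsLocalRing.ResidueField ↥A)⟮xk⟯
        ↥(modularFunctionFieldFullC (IsLocalRing.ResidueField ↥A) N) →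
      Algebra.IsSeparable (IsLocalRing.ResidueField ↥A)⟮xk⟯
        ↥(modularFunctionFieldFullC (IsLocalRing.ResidueField ↥A) N) →
      Module.finrank (AlgebraicClosure ℚ)⟮xL⟯ ↥(modularFunctionFieldBar N) ≤
        Module.finrank (IsLocalRing.ResidueField ↥A)⟮xk⟯
          ↥(modularFunctionFieldFullC (IsLocalRing.ResidueField ↥A) N) →
      LiftAt N A xL xk →
      genusFF (AlgebraicClosure ℚ) ↥(modularFunctionFieldBar N) ≤
        genusFF (IsLocalRing.ResidueField ↥A)
          ↥(modularFunctionFieldFullC (IsLocalRing.ResidueField ↥A) N)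

/-- **E6-GAUSS, general coordinate**: for a coordinate `x₀` with integral `q`-expansion `xZ`
all of whose reductions have nonzero order (hence are transcendental), the `q`-expansion
principle gives: Gauss closure `C(x)` = Gauss ring. -/
def ModelGaussGenStatement : Prop :=
  ∀ (N ℓ : ℕ) [NeZero N] (x₀ : LaurentSeries ℚ) (xZ : LaurentSeries ℤ),
    coeffMap (Int.castRingHom ℚ) xZ = x₀ →
    (∀ (k : Type) [Field k], (coeffMap (Int.castRingHom k) xZ).order ≠ 0) →
    ModelTranscendentalStatement N x₀ →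
    ModelQExpStatement N ℓ x₀ → ModelGaussStatement N ℓ x₀

end Fermat.Agent.H9.E6

end
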