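import Fermat.Agent.H9.E6.LiftFinal
import Fermat.Agent.H90.E6.Count

/-!
# E6 : the unconditional genus inequality for `ℓ ≥ 5` (helper9)

`genusUncondJ : GenusUncondJStatement` : for `ℓ ≥ 5`, `ℓ ∤ N` and every valuation subring `A` of
`ℚ̄` over `ℓ` with residue field `k`:
`genusFF ℚ̄ (modularFunctionFieldBar N) ≤ genusFF k (modularFunctionFieldFullC k N)`.
-/

set_option autoImplicit false

noncomputable section

namespace Fermat.Agent.H9.E6

/-- **E6 for `ℓ ≥ 5`**, unconditional. -/
theorem genusUncondJ : GenusUncondJStatement :=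
  Fermat.Agent.H90.E6.genusUncondJ_of_liftJ liftJ

end Fermat.Agent.H9.E6

end
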