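import Fermat.Agent.H9.E6.GenusTame
import Fermat.Agent.H90.E6.CountGen
import Fermat.Agent.H65.E6.ModelGaussGen

/-!
# E6 : the unconditional genus inequality at all tame pairs, and T4 (helper9)

* `genusUncondTame : H18.GenusUncondTameStatement` — for every `N`, every prime `ℓ ∤ N` with
  `ℓ ≥ 5`, or `ℓ = 3` and `2 ∣ N`, or `ℓ = 2` and `3 ∣ N`, and every valuation subring `A` of `ℚ̄`
  over `ℓ`: `genusFF ℚ̄ F_L ≤ genusFF k F_k`.
* `existsReductionTame : H27.ESD.ExistsReductionTameStatement` (T4).
-/

set_option autoImplicit false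

noncomputable section

namespace Fermat.Agent.H9.E6

/-- **E6**, unconditional, all tame pairs. -/
theorem genusUncondTame : Fermat.Agent.H18.GenusUncondTameStatement :=
  genusUncondTame_of Fermat.Agent.H90.E6.count Fermat.Agent.H65.modelGaussGen

/-- **T4 (ES-D-EX)**, unconditional. -/
theorem existsReductionTame : Fermat.Agent.H27.ESD.ExistsReductionTameStatement :=
  Fermat.Agent.H18.existsReductionTame_of_genus genusUncondTame

end Fermat.Agent.H9.E6

end
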