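import Fermat.Agent.H9.E6.LiftGenFinal
import Fermat.Agent.H9.E6.GenusJ
import Fermat.Agent.H22.ES.KLFinal
import Fermat.Agent.H17.ESD.TameT2
import Fermat.Agent.H1.ESD.T3Tame
import Fermat.Agent.H18.ExTame

/-!
# E6 : the unconditional genus inequality at ALL tame pairs (helper9)

`genusUncondTame_of : CountStatement → ModelGaussGenStatement → H18.GenusUncondTameStatement`:
`ℓ ≥ 5` is `genusUncondJ`; `ℓ = 3`, `2 ∣ N` uses the coordinate `t₂`; `ℓ = 2`, `3 ∣ N` uses the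
coordinate `t₃`.
-/

set_option autoImplicit false
set_option linter.unusedSectionVars false
set_option linter.style.haveILetI false
set_option synthInstance.maxHeartbeats 400000
set_option maxHeartbeats 1600000

noncomputable section

namespace Fermat.Agent.H9.E6

open Polynomial ModularCurve AlgebraicCurve IntermediateField
open Fermat.Agent.H22.KL
open Fermat.Agent.H93.KL (QBar)

/-- **E6 at `ℓ = 3`, `2 ∣ N`** (coordinate `t₂`). -/
theorem genus_three_of (hC : CountStatement) (hG : ModelGaussGenStatement)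
    (N : ℕ) [NeZero N] (h2 : 2 ∣ N) (h3 : ¬ 3 ∣ N)
    (A : ValuationSubring (AlgebraicClosure ℚ)) (hA : A.LiesOverPrime 3) :
    genusFF (AlgebraicClosure ℚ) ↥(modularFunctionFieldBar N) ≤
      genusFF (IsLocalRing.ResidueField ↥A)
        ↥(modularFunctionFieldFullC (IsLocalRing.ResidueField ↥A) N) := by
  haveI : Fact (Nat.Prime 3) := ⟨Nat.prime_three⟩
  haveI : IsAlgClosed (IsLocalRing.ResidueField ↥A) :=
    Fermat.Agent.H89.isAlgClosed_residueField A
  haveI : CharP (IsLocalRing.ResidueField ↥A) 3 :=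
    Fermat.Agent.H89.charP_residueField_of_liesOverPrime A 3 hA
  have hM : Fermat.Agent.H27.HasHeckeData (IsLocalRing.ResidueField ↥A) :=
    Fermat.Agent.H67.hasHeckeData_of_complex Fermat.Agent.H17.hasHeckeData_complex _
  have h2k : (2 : IsLocalRing.ResidueField ↥A) ≠ 0 := by
    intro h
    have h' : ((2 : ℕ) : IsLocalRing.ResidueField ↥A) = 0 := by exact_mod_cast h
    have := (CharP.cast_eq_zero_iff (IsLocalRing.ResidueField ↥A) 3 2).mp h'
    omega
  have hxZ : coeffMap (Int.castRingHom ℚ) (Fermat.Agent.H17.ESD.t2S ℤ) =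
      Fermat.Agent.H17.ESD.t2S ℚ := Fermat.Agent.H17.ESD.coeffMap_t2S _
  have hord : ∀ (k : Type) [Field k],
      (coeffMap (Int.castRingHom k) (Fermat.Agent.H17.ESD.t2S ℤ)).order ≠ 0 := by
    intro k _
    rw [Fermat.Agent.H17.ESD.coeffMap_t2S, Fermat.Agent.H17.ESD.t2S_order]
    norm_num
  have hTr := Fermat.Agent.H17.ESD.modelTranscendental_t2 N
  have hQ := Fermat.Agent.H87.KL.modelQExp_t2 N 3 Nat.prime_three
    (Fermat.Agent.H48.QExp.modelQExp_j N 3 Nat.prime_three h3)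
  have hlift : LiftAt N A (Fermat.Agent.H17.ESD.t2Bar N h2)
      (Fermat.Agent.H17.ESD.t2K (IsLocalRing.ResidueField ↥A) N h2k h2) :=
    liftGen N 3 (2 * N) (mul_ne_zero (by norm_num) (NeZero.ne N))
      (Fermat.Agent.H17.ESD.t2S ℚ) (Fermat.Agent.H17.ESD.t2S ℤ) hxZ
      (Fermat.Agent.H17.ESD.t2S_rat_mem N h2) hord hTr
      (Fermat.Agent.H27.KLGB.modelGoodBasis_t2 N 3 Nat.prime_three h3 (by norm_num))
      (Fermat.Agent.H2.klbr_model_three N h2 h3)
      (hG N 3 _ _ hxZ hord hTr hQ) A hA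
      (Fermat.Agent.H17.ESD.t2Bar N h2) (Fermat.Agent.H17.ESD.coeffMap_t2S _).symm
      (Fermat.Agent.H17.ESD.t2K (IsLocalRing.ResidueField ↥A) N h2k h2)
      (Fermat.Agent.H17.ESD.coeffMap_t2S _).symm
  obtain ⟨htr, hfin, hsep, hdegk⟩ :=
    Fermat.Agent.H17.ESD.t2K_explicit (IsLocalRing.ResidueField ↥A) N 3 h3 hM h2k h2
  have hdeg := Fermat.Agent.H7.ESD.tg_dedekindPsi_le_finrank (IsLocalRing.ResidueField ↥A) N 3
    h3 hM
  refine hC N 3 h3 A hA _ _ (Fermat.Agent.H17.ESD.t2Bar_transcendental N h2)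
    (Fermat.Agent.H17.ESD.t2Bar_finiteDimensional N h2) htr hfin hsep ?_ hlift
  have h5 := Fermat.Agent.H17.ESD.t2Bar_finrank N h2
  rw [Fermat.Agent.H7.ESD.tg_finrank_jBar] at h5
  have h6 : dedekindPsi N ≤ 3 * Module.finrank
      (adjoin (IsLocalRing.ResidueField ↥A)
        {Fermat.Agent.H17.ESD.t2K (IsLocalRing.ResidueField ↥A) N h2k h2})
      ↥(modularFunctionFieldFullC (IsLocalRing.ResidueField ↥A) N) := by
    rw [← hdegk]
    exact hdeg
  omega

/-- **E6 at `ℓ = 2`, `3 ∣ N`** (coordinate `t₃`). -/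
theorem genus_two_of (hC : CountStatement) (hG : ModelGaussGenStatement)
    (N : ℕ) [NeZero N] (h3 : 3 ∣ N) (h2 : ¬ 2 ∣ N)
    (A : ValuationSubring (AlgebraicClosure ℚ)) (hA : A.LiesOverPrime 2) :
    genusFF (AlgebraicClosure ℚ) ↥(modularFunctionFieldBar N) ≤
      genusFF (IsLocalRing.ResidueField ↥A)
        ↥(modularFunctionFieldFullC (IsLocalRing.ResidueField ↥A) N) := by
  haveI : Fact (Nat.Prime 2) := ⟨Nat.prime_two⟩
  haveI : IsAlgClosed (IsLocalRing.ResidueField ↥A) :=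
    Fermat.Agent.H89.isAlgClosed_residueField A
  haveI : CharP (IsLocalRing.ResidueField ↥A) 2 :=
    Fermat.Agent.H89.charP_residueField_of_liesOverPrime A 2 hA
  have hM : Fermat.Agent.H27.HasHeckeData (IsLocalRing.ResidueField ↥A) :=
    Fermat.Agent.H1.ESD.hasHeckeData_any _
  have h3k : (3 : IsLocalRing.ResidueField ↥A) ≠ 0 := by
    intro h
    have h1 : ((3 : ℕ) : IsLocalRing.ResidueField ↥A) = 0 := by exact_mod_cast h
    have h2 := (CharP.cast_eq_zero_iff (IsLocalRing.ResidueField ↥A) 2 3).mp h1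
    omega
  have hxZ : coeffMap (Int.castRingHom ℚ) (Fermat.Agent.H1.ESD.t3 ℤ) =
      Fermat.Agent.H1.ESD.t3 ℚ := Fermat.Agent.H1.ESD.coeffMap_t3 _
  have hord : ∀ (k : Type) [Field k],
      (coeffMap (Int.castRingHom k) (Fermat.Agent.H1.ESD.t3 ℤ)).order ≠ 0 := by
    intro k _
    rw [Fermat.Agent.H1.ESD.coeffMap_t3, Fermat.Agent.H1.ESD.order_t3]
    norm_num
  have hTr := Fermat.Agent.H58.modelTranscendental_of_order_ne_zero N (Fermat.Agent.H1.ESD.t3 ℚ)
    Fermat.Agent.H1.ESD.order_t3_rat_ne_zero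
  have hQ := Fermat.Agent.H87.KL.modelQExp_t3 N 2 Nat.prime_two
    (Fermat.Agent.H48.QExp.modelQExp_j N 2 Nat.prime_two h2)
  have hlift : LiftAt N A (Fermat.Agent.H1.ESD.t3Bar N h3)
      (⟨Fermat.Agent.H1.ESD.t3 (IsLocalRing.ResidueField ↥A),
        Fermat.Agent.H1.ESD.t3_mem_fullC _ h3k N h3⟩ :
        ↥(modularFunctionFieldFullC (IsLocalRing.ResidueField ↥A) N)) :=
    liftGen N 2 (3 * N) (mul_ne_zero (by norm_num) (NeZero.ne N))
      (Fermat.Agent.H1.ESD.t3 ℚ) (Fermat.Agent.H1.ESD.t3 ℤ) hxZ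
      (Fermat.Agent.H1.ESD.t3_rat_mem_full N h3) hord hTr
      (Fermat.Agent.H27.KLGB.modelGoodBasis_t3 N 2 Nat.prime_two h2 (by norm_num))
      (Fermat.Agent.H2.klbr_model_two N h3 h2)
      (hG N 2 _ _ hxZ hord hTr hQ) A hA
      (Fermat.Agent.H1.ESD.t3Bar N h3) (Fermat.Agent.H1.ESD.coeffMap_t3 _).symm
      _ (Fermat.Agent.H1.ESD.coeffMap_t3 _).symm
  obtain ⟨htr, hfin, hsep⟩ :=
    Fermat.Agent.H7.ESD.tg_ffModL_explicit (IsLocalRing.ResidueField ↥A) N 2 h2 hM
  have hdeg := Fermat.Agent.H7.ESD.tg_dedekindPsi_le_finrank (IsLocalRing.ResidueField ↥A) N 2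
    h2 hM
  have hrelk := Fermat.Agent.H1.ESD.t3k_rel (IsLocalRing.ResidueField ↥A) N h3k h3
  have hne0k := Fermat.Agent.H1.ESD.t3k_ne_zero (IsLocalRing.ResidueField ↥A) N h3k h3
  have hlek := Fermat.Agent.H1.ESD.hg_adjoin_le (K := IsLocalRing.ResidueField ↥A) hrelk hne0k
  refine hC N 2 h2 A hA _ _ (Fermat.Agent.H1.ESD.t3Bar_transcendental N h3)
    (Fermat.Agent.H1.ESD.t3Bar_finiteDimensional N h3)
    (Fermat.Agent.H1.ESD.hg_transcendental hrelk hne0k htr)
    (by haveI := hfin; exact Fermat.Agent.H1.ESD.hg_finite hlek)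
    (by haveI := hsep; exact Fermat.Agent.H1.ESD.hg_separable hlek) ?_ hlift
  have h1 := Fermat.Agent.H1.ESD.t3Bar_finrank N h3
  have h2' := Fermat.Agent.H1.ESD.t3k_finrank (IsLocalRing.ResidueField ↥A) N h3k h3
  have h3' := Fermat.Agent.H7.ESD.tg_finrank_jBar N
  omega

/-- **E6 at all tame pairs**, from the general count and the general Gauss statement. -/
theorem genusUncondTame_of (hC : CountStatement) (hG : ModelGaussGenStatement) :
    Fermat.Agent.H18.GenusUncondTameStatement := by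
  intro N _ ℓ _ hℓN ht A hA
  rcases ht with h5 | ⟨rfl, h2⟩ | ⟨rfl, h3⟩
  · exact genusUncondJ N ℓ hℓN h5 A hA
  · exact genus_three_of hC hG N h2 hℓN A hA
  · exact genus_two_of hC hG N h3 hℓN A hA

end Fermat.Agent.H9.E6

end
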