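import Mathlib

/-!
# E6 : generic integrality lemmas (helper9)

Integrality of an element with respect to a ring homomorphism `g : R →+* E`
(`RingHom.IsIntegralElem`): transport along commutative squares, reflection along injective
maps, and the polynomial form of integrality over `Algebra.adjoin K {x}`.
-/

set_option autoImplicit false

namespace Fermat.Agent.H9.E6

open Polynomial

/-- Transport of integrality along a commutative square of ring homomorphisms. -/
theorem isIntegralElem_map_of_comm {R R' E E' : Type*} [CommRing R] [CommRing R']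
    [CommRing E] [CommRing E'] (g : R →+* E) (g' : R' →+* E') (σ : R →+* R') (φ : E →+* E')
    (hcomm : φ.comp g = g'.comp σ) {y : E} (hy : g.IsIntegralElem y) :
    g'.IsIntegralElem (φ y) := by
  obtain ⟨P, hPm, hP⟩ := hy
  refine ⟨P.map σ, hPm.map σ, ?_⟩
  rw [eval₂_map, ← hcomm, ← hom_eval₂, hP, map_zero]

/-- Reflection of integrality along an injective homomorphism. -/
theorem isIntegralElem_of_comp_injective {R E E' : Type*} [CommRing R] [CommRing E]
    [CommRing E'] (g : R →+* E) (φ : E →+* E') (hφ : Function.Injective φ) {y : E}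
    (hy : (φ.comp g).IsIntegralElem (φ y)) : g.IsIntegralElem y := by
  obtain ⟨P, hPm, hP⟩ := hy
  refine ⟨P, hPm, hφ ?_⟩
  rw [hom_eval₂, hP, map_zero]

/-- Integrality over `Algebra.adjoin K {x}` in polynomial form. -/
theorem isIntegral_adjoin_singleton_iff {K E : Type*} [CommRing K] [CommRing E] [Algebra K E]
    (x y : E) :
    IsIntegral (Algebra.adjoin K {x}) y ↔
      ((aeval x : K[X] →ₐ[K] E) : K[X] →+* E).IsIntegralElem y := by
  set S : Subalgebra K E := Algebra.adjoin K {x} with hS
  have hrange : ∀ H : K[X], aeval x H ∈ S := fun H =>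
    Polynomial.aeval_mem_adjoin_singleton K x
  let g : K[X] →+* S :=
    ((aeval x : K[X] →ₐ[K] E) : K[X] →+* E).codRestrict S.toSubring hrange
  have hg : Function.Surjective g := by
    rintro ⟨s, hs⟩
    have hs' : s ∈ Algebra.adjoin K {x} := hs
    rw [Algebra.adjoin_singleton_eq_range_aeval] at hs'
    obtain ⟨H, rfl⟩ := hs'
    exact ⟨H, rfl⟩
  have hcomp : (algebraMap S E).comp g = ((aeval x : K[X] →ₐ[K] E) : K[X] →+* E) := by
    ext <;> rfl
  constructor
  · rintro ⟨p, hp, hpy⟩
    obtain ⟨q, hq, -, hqm⟩ := Polynomial.lifts_and_natDegree_eq_and_monic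
      (p := p) ((Polynomial.mem_lifts p).2 (Polynomial.map_surjective g hg p)) hp
    refine ⟨q, hqm, ?_⟩
    rw [← hcomp, ← Polynomial.eval₂_map, hq]
    exact hpy
  · rintro ⟨q, hq, hqy⟩
    refine ⟨q.map g, hq.map g, ?_⟩
    rw [Polynomial.eval₂_map, hcomp]
    exact hqy

end Fermat.Agent.H9.E6
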