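import Mathlib

/-!
# E6 : interfaces, part 2 — residue fields of `A ∩ K₁ ⊆ A` (helper9)

`ι : K₁ → L` a field embedding, `A` a valuation subring of `L`, `A₁ = A.comap ι`.
* `comapHom ι A : A₁ →+* A`, a local homomorphism; `resMap ι A : k₁ →+* k` the induced map of
  residue fields.
* `ResFiniteStatement` : `k₁` is finite when `K₁` is a number field and `A` lies over a prime.
* `ResAlgebraicStatement` : `k` is integral (algebraic) over `k₁` when `L / K₁` is algebraic.
-/

set_option autoImplicit false

noncomputable section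

namespace Fermat.Agent.H9.E6

variable {K₁ L : Type} [Field K₁] [Field L]

/-- The inclusion `A ∩ K₁ → A`. -/
def comapHom (ι : K₁ →+* L) (A : ValuationSubring L) : ↥(A.comap ι) →+* ↥A where
  toFun x := ⟨ι (x : K₁), x.2⟩
  map_one' := Subtype.ext (map_one ι)
  map_mul' _ _ := Subtype.ext (map_mul ι _ _)
  map_zero' := Subtype.ext (map_zero ι)
  map_add' _ _ := Subtype.ext (map_add ι _ _)

@[simp]
theorem comapHom_coe (ι : K₁ →+* L) (A : ValuationSubring L) (x : ↥(A.comap ι)) :
    ((comapHom ι A x : ↥A) : L) = ι (x : K₁) := rfl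

instance comapHom_isLocalHom (ι : K₁ →+* L) (A : ValuationSubring L) :
    IsLocalHom (comapHom ι A) where
  map_nonunit x hx := by
    obtain ⟨c, hc⟩ := isUnit_iff_exists_inv.mp hx
    have hc' : ι (x : K₁) * (c : L) = 1 := congrArg Subtype.val hc
    have hx0 : (x : K₁) ≠ 0 := by
      intro h0
      rw [h0, map_zero, zero_mul] at hc'
      exact zero_ne_one hc'
    have hinv : (c : L) = ι ((x : K₁)⁻¹) := by
      rw [map_inv₀]
      exact eq_inv_of_mul_eq_one_right hc'
    have hmem : (x : K₁)⁻¹ ∈ A.comap ι := by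
      rw [ValuationSubring.mem_comap, ← hinv]
      exact c.2
    exact isUnit_iff_exists_inv.mpr ⟨⟨(x : K₁)⁻¹, hmem⟩, Subtype.ext (mul_inv_cancel₀ hx0)⟩

/-- The induced map of residue fields `k₁ → k`. -/
def resMap (ι : K₁ →+* L) (A : ValuationSubring L) :
    IsLocalRing.ResidueField ↥(A.comap ι) →+* IsLocalRing.ResidueField ↥A :=
  IsLocalRing.ResidueField.map (comapHom ι A)

theorem resMap_residue (ι : K₁ →+* L) (A : ValuationSubring L) (x : ↥(A.comap ι)) :
    resMap ι A (IsLocalRing.residue _ x) = IsLocalRing.residue _ (comapHom ι A x) :=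
  IsLocalRing.ResidueField.map_residue _ _

/-- **E6-FIN**: the residue field of `A ∩ K₁` is finite, for a number field `K₁` and a valuation
subring `A` of `L ⊇ K₁` lying over a prime `ℓ`. -/
def ResFiniteStatement : Prop :=
  ∀ (K₁ L : Type) [Field K₁] [NumberField K₁] [Field L] (ι : K₁ →+* L)
    (A : ValuationSubring L) (ℓ : ℕ), ℓ.Prime → (ℓ : L) ∈ A.nonunits →
    Finite (IsLocalRing.ResidueField ↥(A.comap ι))

/-- **E6-ALG**: if `L` is algebraic over `ι K₁`, the residue field of `A` is integral over the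
residue field of `A ∩ K₁`. -/
def ResAlgebraicStatement : Prop :=
  ∀ (K₁ L : Type) [Field K₁] [Field L] (ι : K₁ →+* L),
    (∀ y : L, ∃ p : Polynomial K₁, p ≠ 0 ∧ Polynomial.eval₂ ι y p = 0) →
    ∀ (A : ValuationSubring L), (resMap ι A).IsIntegral

end Fermat.Agent.H9.E6

end
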