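import Fermat.Agent.H9.E6.Interfaces
import Fermat.Agent.H23.BlueprintMod

/-!
# E6 : interfaces, part 3 — the lifting statement and the final count (helper9)

`LiftJStatement` : for `ℓ ≥ 5`, `ℓ ∤ N`, `A` over `ℓ`: there is `m₀` such that for `m ≥ m₀` every
`y ∈ F_k` integral over `k[j̄]` with `j̄⁻ᵐ y` integral over `k[j̄⁻¹]` is the reduction of some
`u ∈ F_L` in the Gauss ring, integral over `ℚ̄[j]` with `j⁻ᵐ u` integral over `ℚ̄[j⁻¹]`.

`GenusUncondJStatement` : the unconditional genus inequality for `ℓ ≥ 5`.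
-/

set_option autoImplicit false

noncomputable section

namespace Fermat.Agent.H9.E6

open Polynomial ModularCurve AlgebraicCurve IntermediateField
open Fermat.Agent.H66 (vGaussRing vGaussRed)

/-- **LIFT** (coordinate `j`, `ℓ ≥ 5`). -/
def LiftJStatement : Prop :=
  ∀ (N : ℕ) [NeZero N] (ℓ : ℕ) [Fact ℓ.Prime], ¬ ℓ ∣ N → 5 ≤ ℓ →
    ∀ (A : ValuationSubring (AlgebraicClosure ℚ)), A.LiesOverPrime ℓ →
    ∃ m₀ : ℕ, ∀ m : ℕ, m₀ ≤ m →
      ∀ y : ↥(modularFunctionFieldFullC (IsLocalRing.ResidueField ↥A) N),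
        IsIntegral (Algebra.adjoin (IsLocalRing.ResidueField ↥A)
          {(⟨jqModC (IsLocalRing.ResidueField ↥A), jqModC_mem_full _ N⟩ :
            ↥(modularFunctionFieldFullC (IsLocalRing.ResidueField ↥A) N))}) y →
        IsIntegral (Algebra.adjoin (IsLocalRing.ResidueField ↥A)
          {(⟨jqModC (IsLocalRing.ResidueField ↥A), jqModC_mem_full _ N⟩ :
            ↥(modularFunctionFieldFullC (IsLocalRing.ResidueField ↥A) N))⁻¹})
          ((⟨jqModC (IsLocalRing.ResidueField ↥A), jqModC_mem_full _ N⟩ :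
            ↥(modularFunctionFieldFullC (IsLocalRing.ResidueField ↥A) N))⁻¹ ^ m * y) →
        ∃ (u : ↥(modularFunctionFieldBar N))
          (hu : (u : LaurentSeries (AlgebraicClosure ℚ)) ∈ vGaussRing A),
          vGaussRed A ⟨(u : LaurentSeries (AlgebraicClosure ℚ)), hu⟩ =
            (y : LaurentSeries (IsLocalRing.ResidueField ↥A)) ∧
          IsIntegral (Algebra.adjoin (AlgebraicClosure ℚ) {Fermat.Agent.H23.jBar N}) u ∧
          IsIntegral (Algebra.adjoin (AlgebraicClosure ℚ) {(Fermat.Agent.H23.jBar N)⁻¹})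
            ((Fermat.Agent.H23.jBar N)⁻¹ ^ m * u)

/-- **E6 for `ℓ ≥ 5`**: the unconditional genus inequality. -/
def GenusUncondJStatement : Prop :=
  ∀ (N : ℕ) [NeZero N] (ℓ : ℕ) [Fact ℓ.Prime], ¬ ℓ ∣ N → 5 ≤ ℓ →
    ∀ (A : ValuationSubring (AlgebraicClosure ℚ)), A.LiesOverPrime ℓ →
      genusFF (AlgebraicClosure ℚ) ↥(modularFunctionFieldBar N) ≤
        genusFF (IsLocalRing.ResidueField ↥A)
          ↥(modularFunctionFieldFullC (IsLocalRing.ResidueField ↥A) N)

end Fermat.Agent.H9.E6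

end
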