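import Fermat.Agent.H9.E6.Transport
import Fermat.Agent.H9.E6.Interfaces3
import Fermat.Agent.H93.KL.NumberFieldDVR

/-!
# E6 : the lifting statement from the pieces (helper9)
-/

set_option autoImplicit false
set_option linter.unusedSectionVars false

noncomputable section

namespace Fermat.Agent.H9.E6

open Polynomial ModularCurve AlgebraicCurve
open Fermat.Agent.H22.KL
open Fermat.Agent.H66
open Fermat.Agent.H87.KL (evX)
open Fermat.Agent.H93.KL (klBc QBar)
open Fermat.Agent.H91.KLNorm (IntModPi)

/-! ### the coordinate `j` in the model -/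

section Coord

variable (K₁ : Type) [Field K₁] [Algebra ℚ K₁] (A₁ : ValuationSubring K₁) (N : ℕ) [NeZero N]

theorem jq_mem_modularFunctionFieldFull : jq ∈ modularFunctionFieldFull N := by
  have h := ModularCurve.jqd_mem_full N (one_dvd N)
  rwa [ModularCurve.qExpand_one_apply] at h

/-- the coordinate `j` of the model field -/
def jModel : ModelField K₁ N :=
  ⟨coeffEmb K₁ jq, coeffEmb_mem_laurentBaseChange K₁ (jq_mem_modularFunctionFieldFull N)⟩

theorem jModel_coe : ((jModel K₁ N : ModelField K₁ N) : LaurentSeries K₁) = coeffEmb K₁ jq := rfl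

theorem coeffEmb_jq_eq : coeffEmb K₁ jq = jqModC K₁ := by
  rw [coeffEmb, ← jqModC_rat, coeffMap_jqModC]

theorem jModel_eq_vIota :
    ((jModel K₁ N : ModelField K₁ N) : LaurentSeries K₁) = vIota A₁ (jqModC ↥A₁) := by
  rw [jModel_coe, coeffEmb_jq_eq]
  exact (coeffMap_jqModC A₁.subtype).symm

theorem jModel_mem_gaussSub : jModel K₁ N ∈ gaussSub A₁ N := by
  rw [mem_gaussSub_iff, jModel_eq_vIota K₁ A₁ N]
  exact vIota_mem_vGaussRing A₁ _

/-- the coordinate as an element of the Gauss subring -/
def jSub : ↥(gaussSub A₁ N) := ⟨jModel K₁ N, jModel_mem_gaussSub K₁ A₁ N⟩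

theorem gaussRedSub_jSub :
    gaussRedSub A₁ N (jSub K₁ A₁ N) = jqModC (IsLocalRing.ResidueField ↥A₁) := by
  rw [gaussRedSub_apply]
  have h : (⟨((jSub K₁ A₁ N : ModelField K₁ N) : LaurentSeries K₁), (jSub K₁ A₁ N).2⟩ :
      vGaussRing A₁) = ⟨vIota A₁ (jqModC ↥A₁), vIota_mem_vGaussRing A₁ _⟩ :=
    Subtype.ext (jModel_eq_vIota K₁ A₁ N)
  rw [h, vGaussRed_vIota]
  exact coeffMap_jqModC (IsLocalRing.residue ↥A₁)

theorem gaussRedSub_jSub_ne_zero : gaussRedSub A₁ N (jSub K₁ A₁ N) ≠ 0 := by
  rw [gaussRedSub_jSub]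
  exact jqModC_ne_zero_of_nontrivial _

end Coord

/-! ### integrality in `F_k` and in `k((q))` -/

section KSide

variable (k : Type) [Field k] (N : ℕ) [NeZero N]

theorem intL_of_isIntegral (x y : ↥(modularFunctionFieldFullC k N))
    (h : IsIntegral (Algebra.adjoin k {x}) y) :
    IntL k (x : LaurentSeries k) (y : LaurentSeries k) := by
  rw [isIntegral_adjoin_singleton_iff] at h
  have hcomm : (algebraMap ↥(modularFunctionFieldFullC k N) (LaurentSeries k)).comp
      ((aeval x : k[X] →ₐ[k] ↥(modularFunctionFieldFullC k N)) :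
        k[X] →+* ↥(modularFunctionFieldFullC k N)) =
      ((aeval (x : LaurentSeries k) : k[X] →ₐ[k] LaurentSeries k) :
        k[X] →+* LaurentSeries k).comp (RingHom.id _) := by
    refine Polynomial.ringHom_ext (fun a => ?_) ?_
    · simp only [RingHom.comp_apply, RingHom.coe_coe, aeval_C, RingHom.id_apply]
      rfl
    · simp only [RingHom.comp_apply, RingHom.coe_coe, aeval_X, RingHom.id_apply]
      rfl
  have := isIntegralElem_map_of_comm _ _ (RingHom.id _)
    (algebraMap ↥(modularFunctionFieldFullC k N) (LaurentSeries k)) hcomm h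
  exact this

end KSide


/-! ### linear combinations in `F_L` -/

section Combine

variable (A : ValuationSubring QBar) (N : ℕ) [NeZero N]

/-- A linear combination, with coefficients in `A`, of elements of `F_L` lying in the Gauss
ring: membership and reduction. -/
theorem combine_gauss {n : ℕ} (a : Fin n → ↥A) (u : Fin n → ↥(modularFunctionFieldBar N))
    (hu : ∀ i, ((u i : ↥(modularFunctionFieldBar N)) : LaurentSeries QBar) ∈ vGaussRing A) :
    ∃ h : (((∑ i, algebraMap QBar ↥(modularFunctionFieldBar N) (a i : QBar) * u i :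
        ↥(modularFunctionFieldBar N)) : ↥(modularFunctionFieldBar N)) : LaurentSeries QBar) ∈
        vGaussRing A,
      vGaussRed A ⟨_, h⟩ =
        ∑ i, algebraMap (IsLocalRing.ResidueField ↥A)
          (LaurentSeries (IsLocalRing.ResidueField ↥A)) (IsLocalRing.residue ↥A (a i)) *
          vGaussRed A ⟨_, hu i⟩ := by
  have hcoe : (((∑ i, algebraMap QBar ↥(modularFunctionFieldBar N) (a i : QBar) * u i :
        ↥(modularFunctionFieldBar N)) : ↥(modularFunctionFieldBar N)) : LaurentSeries QBar) =
      ((∑ i, (⟨algebraMap QBar (LaurentSeries QBar) (a i : QBar),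
          algebraMap_mem_vGaussRing A (a i).2⟩ : vGaussRing A) *
        ⟨((u i : ↥(modularFunctionFieldBar N)) : LaurentSeries QBar), hu i⟩ : vGaussRing A) :
        LaurentSeries QBar) := by
    have h1 : (((∑ i, algebraMap QBar ↥(modularFunctionFieldBar N) (a i : QBar) * u i :
          ↥(modularFunctionFieldBar N)) : ↥(modularFunctionFieldBar N)) : LaurentSeries QBar) =
        ∑ i, algebraMap QBar (LaurentSeries QBar) (a i : QBar) *
          ((u i : ↥(modularFunctionFieldBar N)) : LaurentSeries QBar) :=
      map_sum (algebraMap ↥(modularFunctionFieldBar N) (LaurentSeries QBar)) _ _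
    have h2 : ((∑ i, (⟨algebraMap QBar (LaurentSeries QBar) (a i : QBar),
          algebraMap_mem_vGaussRing A (a i).2⟩ : vGaussRing A) *
        ⟨((u i : ↥(modularFunctionFieldBar N)) : LaurentSeries QBar), hu i⟩ : vGaussRing A) :
        LaurentSeries QBar) =
        ∑ i, algebraMap QBar (LaurentSeries QBar) (a i : QBar) *
          ((u i : ↥(modularFunctionFieldBar N)) : LaurentSeries QBar) :=
      map_sum (vGaussRing A).subtype _ _
    rw [h1, h2]
  have hmem : (((∑ i, algebraMap QBar ↥(modularFunctionFieldBar N) (a i : QBar) * u i :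
        ↥(modularFunctionFieldBar N)) : ↥(modularFunctionFieldBar N)) : LaurentSeries QBar) ∈
        vGaussRing A := by
    rw [hcoe]
    exact Subtype.mem _
  refine ⟨hmem, ?_⟩
  have hsub : (⟨_, hmem⟩ : vGaussRing A) =
      ∑ i, (⟨algebraMap QBar (LaurentSeries QBar) (a i : QBar),
          algebraMap_mem_vGaussRing A (a i).2⟩ : vGaussRing A) *
        ⟨((u i : ↥(modularFunctionFieldBar N)) : LaurentSeries QBar), hu i⟩ :=
    Subtype.ext hcoe
  rw [hsub, map_sum]
  refine Finset.sum_congr rfl fun i _ => ?_
  rw [map_mul, vGaussRed_algebraMap]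

/-- A linear combination with constant coefficients of integral elements is integral. -/
theorem combine_integral {K F : Type*} [Field K] [Field F] [Algebra K F] (R : Subalgebra K F)
    {n : ℕ} (a : Fin n → K) (u : Fin n → F) (hu : ∀ i, IsIntegral R (u i)) :
    IsIntegral R (∑ i, algebraMap K F (a i) * u i) := by
  refine IsIntegral.sum _ fun i _ => ?_
  refine IsIntegral.mul ?_ (hu i)
  have : algebraMap K F (a i) = algebraMap R F (algebraMap K R (a i)) := rfl
  rw [this]
  exact isIntegral_algebraMap

end Combine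

end Fermat.Agent.H9.E6

end
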