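import Fermat.Agent.H9.E6.LiftMain
import Fermat.Agent.H3.KLCover
import Fermat.Agent.H4.E6.Desc
import Fermat.Agent.H66.E6.ModelRedSurj
import Fermat.Agent.H96.E6.ResFinite
import Fermat.Agent.H5.E6.ResAlgebraic
import Fermat.Agent.H65.E6.ModelGaussFinal
import Fermat.Agent.H22.ES.KLFinalJ
import Fermat.Agent.H89.KLGauss
import Fermat.Agent.H89.ESDA3AlgClosed

/-!
# E6 : the lifting statement `LiftJStatement`, unconditional (helper9)

For `ℓ ≥ 5`, `ℓ ∤ N`, `A` a valuation subring of `ℚ̄` over `ℓ`: for `m ≥ m₀` every `y ∈ F_k`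
integral over `k[j̄]` with `j̄⁻ᵐ y` integral over `k[j̄⁻¹]` is the reduction of some `u ∈ F_L` in
the Gauss ring which is integral over `ℚ̄[j]` with `j⁻ᵐ u` integral over `ℚ̄[j⁻¹]`.
-/

set_option autoImplicit false
set_option linter.unusedSectionVars false
set_option linter.style.haveILetI false

noncomputable section

namespace Fermat.Agent.H9.E6

open Polynomial ModularCurve AlgebraicCurve
open Fermat.Agent.H22.KL
open Fermat.Agent.H93.KL (QBar)

/-- **LIFT**, unconditional, coordinate `j`, `ℓ ≥ 5`. -/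
theorem liftJ : LiftJStatement := by
  intro N _ ℓ _ hN h5 A hA
  have hℓ : ℓ.Prime := Fact.out
  haveI : IsAlgClosed (IsLocalRing.ResidueField ↥A) :=
    Fermat.Agent.H89.isAlgClosed_residueField A
  have hM : 3 * N ≠ 0 := Nat.mul_ne_zero (by norm_num) (NeZero.ne N)
  haveI : NeZero (((3 * N : ℕ) : ℕ) : QBar) := ⟨Nat.cast_ne_zero.mpr hM⟩
  obtain ⟨ζ, hζ⟩ := HasEnoughRootsOfUnity.exists_primitiveRoot QBar (3 * N)
  have halg : Algebra.IsAlgebraic ℚ QBar := AlgebraicClosure.isAlgebraic ℚ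
  haveI : FiniteDimensional ℚ ↥(IntermediateField.adjoin ℚ ({ζ} : Set QBar)) :=
    IntermediateField.finiteDimensional_adjoin
      (fun x _ => (Algebra.IsAlgebraic.isAlgebraic (R := ℚ) x).isIntegral)
  have hζmem : ζ ∈ IntermediateField.adjoin ℚ ({ζ} : Set QBar) :=
    IntermediateField.subset_adjoin ℚ _ (Set.mem_singleton ζ)
  have hζ' : IsPrimitiveRoot
      (⟨ζ, hζmem⟩ : ↥(IntermediateField.adjoin ℚ ({ζ} : Set QBar))) (3 * N) :=
    IsPrimitiveRoot.of_map_of_injective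
      (f := algebraMap ↥(IntermediateField.adjoin ℚ ({ζ} : Set QBar)) QBar) hζ
      (algebraMap ↥(IntermediateField.adjoin ℚ ({ζ} : Set QBar)) QBar).injective
  exact liftJ_core Fermat.Agent.H3.KLCover.twoChartLift Fermat.Agent.H4.E6.specialFibreDescent
    Fermat.Agent.H66.E6.modelRedSurj Fermat.Agent.H96.E6.resFinite
    Fermat.Agent.H5.E6.resAlgebraic Fermat.Agent.H89.gaussClosureStatement N ℓ (3 * N)
    (Fermat.Agent.H58.modelTranscendental_jq N)
    (Fermat.Agent.H27.KLGB.modelGoodBasis_j N ℓ hℓ hN)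
    (Fermat.Agent.H2.klbr_model_j N ℓ hℓ h5 hN (3 * N) hM (Dvd.intro _ rfl)
      (Dvd.intro_left _ rfl))
    (Fermat.Agent.H65.modelGauss_j N ℓ hℓ hN) A hA
    ↥(IntermediateField.adjoin ℚ ({ζ} : Set QBar))
    (algebraMap ↥(IntermediateField.adjoin ℚ ({ζ} : Set QBar)) QBar) ⟨_, hζ'⟩

end Fermat.Agent.H9.E6

end
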