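import Fermat.Agent.H9.E6.LiftMain
import Fermat.Agent.H9.E6.Interfaces4

/-!
# E6 : the lifting statement for a general coordinate (helper9)

The coordinate is `x₀ ∈ F_ℚ(N)` with integral `q`-expansion `xZ : LaurentSeries ℤ`
(`x₀ = coeffMap (Int.castRingHom ℚ) xZ`); `liftGen_core` is `liftJ_core` for this coordinate.
-/

set_option autoImplicit false
set_option linter.unusedSectionVars false
set_option linter.style.haveILetI false

noncomputable section

namespace Fermat.Agent.H9.E6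

open Polynomial ModularCurve AlgebraicCurve
open Fermat.Agent.H22.KL
open Fermat.Agent.H66
open Fermat.Agent.H87.KL (evX)
open Fermat.Agent.H93.KL (klBc QBar)
open Fermat.Agent.H91.KLNorm (IntModPi)

/-! ### the coordinate in the model -/

section Coord

variable (K₁ : Type) [Field K₁] [Algebra ℚ K₁] (A₁ : ValuationSubring K₁) (N : ℕ) [NeZero N]
  (x₀ : LaurentSeries ℚ) (xZ : LaurentSeries ℤ)
  (hxZ : coeffMap (Int.castRingHom ℚ) xZ = x₀) (hx₀ : x₀ ∈ modularFunctionFieldFull N)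

theorem coeffMap_intCast {R S : Type*} [CommRing R] [CommRing S] (φ : R →+* S)
    (xZ : LaurentSeries ℤ) :
    coeffMap φ (coeffMap (Int.castRingHom R) xZ) = coeffMap (Int.castRingHom S) xZ := by
  rw [coeffMap_coeffMap]
  exact coeffMap_congr (RingHom.ext fun c => by simp) xZ

include hxZ in
theorem coeffEmb_eq_intCast : coeffEmb K₁ x₀ = coeffMap (Int.castRingHom K₁) xZ := by
  rw [← hxZ, coeffEmb]
  exact coeffMap_intCast _ xZ

/-- the coordinate of the model field -/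
def xModel : ModelField K₁ N :=
  ⟨coeffEmb K₁ x₀, coeffEmb_mem_laurentBaseChange K₁ hx₀⟩

theorem xModel_coe :
    ((xModel K₁ N x₀ hx₀ : ModelField K₁ N) : LaurentSeries K₁) = coeffEmb K₁ x₀ := rfl

include hxZ in
theorem xModel_eq_vIota :
    ((xModel K₁ N x₀ hx₀ : ModelField K₁ N) : LaurentSeries K₁) =
      vIota A₁ (coeffMap (Int.castRingHom ↥A₁) xZ) := by
  rw [xModel_coe, coeffEmb_eq_intCast K₁ x₀ xZ hxZ]
  exact (coeffMap_intCast A₁.subtype xZ).symm

include hxZ in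
theorem xModel_mem_gaussSub : xModel K₁ N x₀ hx₀ ∈ gaussSub A₁ N := by
  rw [mem_gaussSub_iff, xModel_eq_vIota K₁ A₁ N x₀ xZ hxZ hx₀]
  exact vIota_mem_vGaussRing A₁ _

/-- the coordinate as an element of the Gauss subring -/
def xSub : ↥(gaussSub A₁ N) := ⟨xModel K₁ N x₀ hx₀, xModel_mem_gaussSub K₁ A₁ N x₀ xZ hxZ hx₀⟩

theorem gaussRedSub_xSub :
    gaussRedSub A₁ N (xSub K₁ A₁ N x₀ xZ hxZ hx₀) =
      coeffMap (Int.castRingHom (IsLocalRing.ResidueField ↥A₁)) xZ := by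
  rw [gaussRedSub_apply]
  have h : (⟨((xSub K₁ A₁ N x₀ xZ hxZ hx₀ : ModelField K₁ N) : LaurentSeries K₁),
      (xSub K₁ A₁ N x₀ xZ hxZ hx₀).2⟩ : vGaussRing A₁) =
      ⟨vIota A₁ (coeffMap (Int.castRingHom ↥A₁) xZ), vIota_mem_vGaussRing A₁ _⟩ :=
    Subtype.ext (xModel_eq_vIota K₁ A₁ N x₀ xZ hxZ hx₀)
  rw [h, vGaussRed_vIota]
  exact coeffMap_intCast (IsLocalRing.residue ↥A₁) xZ

end Coord

theorem klBc_xModel (K₁ : Type) [Field K₁] [Algebra ℚ K₁] (ι : K₁ →+* QBar) (N : ℕ) [NeZero N]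
    (x₀ : LaurentSeries ℚ) (xZ : LaurentSeries ℤ)
    (hxZ : coeffMap (Int.castRingHom ℚ) xZ = x₀) (hx₀ : x₀ ∈ modularFunctionFieldFull N)
    (xL : ↥(modularFunctionFieldBar N))
    (hxL : (xL : LaurentSeries QBar) = coeffMap (Int.castRingHom QBar) xZ) :
    klBc ι (modularFunctionFieldFull N) (xModel K₁ N x₀ hx₀) = xL := by
  apply Subtype.ext
  show coeffMap ι (coeffEmb K₁ x₀) = (xL : LaurentSeries QBar)
  rw [hxL, coeffEmb_eq_intCast K₁ x₀ xZ hxZ]
  exact coeffMap_intCast ι xZ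

set_option maxHeartbeats 1600000 in
/-- **LIFT over an abstract number field** `ι : K₁ → ℚ̄` containing a primitive `M`-th root of
unity, for a general coordinate. -/
theorem liftGen_core (hLift : TwoChartLiftStatement) (hDesc : SpecialFibreDescentStatement)
    (hSurj : ModelRedSurjStatement) (hFin : ResFiniteStatement) (hAlg : ResAlgebraicStatement)
    (hGC : GaussClosureStatement)
    (N : ℕ) [NeZero N] (ℓ : ℕ) [Fact ℓ.Prime] (M : ℕ)
    (x₀ : LaurentSeries ℚ) (xZ : LaurentSeries ℤ)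
    (hxZ : coeffMap (Int.castRingHom ℚ) xZ = x₀) (hx₀ : x₀ ∈ modularFunctionFieldFull N)
    (hord : ∀ (k : Type) [Field k], (coeffMap (Int.castRingHom k) xZ).order ≠ 0)
    (hTr : ModelTranscendentalStatement N x₀) (hGB : ModelGoodBasisStatement N ℓ x₀)
    (hBR : ModelBranchStatement N ℓ x₀ M) (hGauss : ModelGaussStatement N ℓ x₀)
    (A : ValuationSubring QBar) (hA : A.LiesOverPrime ℓ)
    [IsAlgClosed (IsLocalRing.ResidueField ↥A)]
    (K₁ : Type) [Field K₁] [Algebra ℚ K₁] [FiniteDimensional ℚ K₁] (ι : K₁ →+* QBar)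
    (hζ : ∃ ζ : K₁, IsPrimitiveRoot ζ M)
    (xL : ↥(modularFunctionFieldBar N))
    (hxL : (xL : LaurentSeries QBar) = coeffMap (Int.castRingHom QBar) xZ)
    (xk : ↥(modularFunctionFieldFullC (IsLocalRing.ResidueField ↥A) N))
    (hxk : (xk : LaurentSeries (IsLocalRing.ResidueField ↥A)) =
      coeffMap (Int.castRingHom (IsLocalRing.ResidueField ↥A)) xZ) :
    LiftAt N A xL xk := by
  classical
  have hℓ : ℓ.Prime := Fact.out
  haveI : NumberField K₁ := numberField_of_fd K₁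
  have hℓL : ((ℓ : ℕ) : QBar) ≠ 0 := Nat.cast_ne_zero.mpr hℓ.ne_zero
  haveI hDVR : IsDiscreteValuationRing ↥(A.comap ι) :=
    Fermat.Agent.H93.KL.comap_isDiscreteValuationRing ι A hℓL hA
  obtain ⟨ϖ, hϖ⟩ := IsDiscreteValuationRing.exists_irreducible ↥(A.comap ι)
  letI := modelAlgebra K₁ (A.comap ι) N
  haveI := modelAlgebra_isScalarTower K₁ (A.comap ι) N
  have hnu : ¬ IsUnit ((ℓ : ℕ) : ↥(A.comap ι)) := by
    have h1 := Fermat.Agent.H93.KL.natCast_mem_nonunits_comap ι A hA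
    rw [ValuationSubring.mem_nonunits_iff_exists_mem_maximalIdeal] at h1
    obtain ⟨hmem, hmax⟩ := h1
    rw [IsLocalRing.mem_maximalIdeal, mem_nonunits_iff] at hmax
    intro hu
    apply hmax
    have e : (⟨(ℓ : K₁), hmem⟩ : ↥(A.comap ι)) = ((ℓ : ℕ) : ↥(A.comap ι)) := Subtype.ext (by simp)
    rw [e]
    exact hu
  have hx₁ : ((xModel K₁ N x₀ hx₀ : ModelField K₁ N) : LaurentSeries K₁) = coeffEmb K₁ x₀ := rfl
  have htr : Transcendental ↥(A.comap ι) (xModel K₁ N x₀ hx₀) :=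
    hTr K₁ ↥(A.comap ι) (xModel K₁ N x₀ hx₀) hx₁
  have hgb : GoodBasis ↥(A.comap ι) (ModelField K₁ N) ϖ (xModel K₁ N x₀ hx₀) :=
    hGB K₁ ↥(A.comap ι) hnu ϖ hϖ (xModel K₁ N x₀ hx₀) hx₁
  obtain ⟨hbr, hbrInf⟩ := hBR K₁ ↥(A.comap ι) hnu hζ ϖ hϖ (xModel K₁ N x₀ hx₀) hx₁
  have hinj : Function.Injective (algebraMap ↥(A.comap ι) (ModelField K₁ N)) := by
    intro a b hab
    have h1 : algebraMap K₁ (ModelField K₁ N) (a : K₁) = algebraMap K₁ (ModelField K₁ N) (b : K₁) :=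
      hab
    exact Subtype.ext ((algebraMap K₁ (ModelField K₁ N)).injective h1)
  haveI : CharZero (ModelField K₁ N) :=
    charZero_of_injective_algebraMap (algebraMap K₁ (ModelField K₁ N)).injective
  obtain ⟨m₀, hm₀⟩ := hLift ↥(A.comap ι) (ModelField K₁ N) hinj ϖ hϖ (xModel K₁ N x₀ hx₀) htr
    hgb hbr hbrInf
  have hG := hGauss K₁ (A.comap ι) hnu ϖ hϖ (xModel K₁ N x₀ hx₀) hx₁
  obtain ⟨hsub, -, hCeq⟩ := hGC ↥(A.comap ι) (ModelField K₁ N) hinj ϖ hϖ (xModel K₁ N x₀ hx₀)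
    htr
  -- residue fields
  haveI : Finite (IsLocalRing.ResidueField ↥(A.comap ι)) := hFin K₁ QBar ι A ℓ hℓ hA
  letI : Algebra (IsLocalRing.ResidueField ↥(A.comap ι)) (IsLocalRing.ResidueField ↥A) :=
    (resMap ι A).toAlgebra
  haveI : Algebra.IsAlgebraic (IsLocalRing.ResidueField ↥(A.comap ι))
      (IsLocalRing.ResidueField ↥A) := by
    have h := hAlg K₁ QBar ι (exists_poly_of_algebraic K₁ ι) A
    haveI : Algebra.IsIntegral (IsLocalRing.ResidueField ↥(A.comap ι))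
        (IsLocalRing.ResidueField ↥A) := ⟨fun x => h x⟩
    exact Algebra.IsIntegral.isAlgebraic
  have hxne : gaussRedSub (A.comap ι) N (xSub K₁ (A.comap ι) N x₀ xZ hxZ hx₀) ≠ 0 := by
    rw [gaussRedSub_xSub]
    intro h0
    apply hord (IsLocalRing.ResidueField ↥(A.comap ι))
    rw [h0]
    exact HahnSeries.order_zero
  refine ⟨m₀, fun m hm y hy1 hy2 => ?_⟩
  have hX : coeffMap (algebraMap (IsLocalRing.ResidueField ↥(A.comap ι))
      (IsLocalRing.ResidueField ↥A))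
      (coeffMap (Int.castRingHom (IsLocalRing.ResidueField ↥(A.comap ι))) xZ) =
      (xk : LaurentSeries (IsLocalRing.ResidueField ↥A)) := by
    rw [hxk]
    exact coeffMap_intCast _ xZ
  have h1 : IntL (IsLocalRing.ResidueField ↥A)
      (coeffMap (algebraMap (IsLocalRing.ResidueField ↥(A.comap ι))
        (IsLocalRing.ResidueField ↥A))
        (coeffMap (Int.castRingHom (IsLocalRing.ResidueField ↥(A.comap ι))) xZ))
      (y : LaurentSeries (IsLocalRing.ResidueField ↥A)) := by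
    rw [hX]
    exact intL_of_isIntegral (IsLocalRing.ResidueField ↥A) N _ y hy1
  have h2 : IntL (IsLocalRing.ResidueField ↥A)
      (coeffMap (algebraMap (IsLocalRing.ResidueField ↥(A.comap ι))
        (IsLocalRing.ResidueField ↥A))
        (coeffMap (Int.castRingHom (IsLocalRing.ResidueField ↥(A.comap ι))) xZ))⁻¹
      ((coeffMap (algebraMap (IsLocalRing.ResidueField ↥(A.comap ι))
        (IsLocalRing.ResidueField ↥A))
        (coeffMap (Int.castRingHom (IsLocalRing.ResidueField ↥(A.comap ι))) xZ))⁻¹ ^ m *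
        (y : LaurentSeries (IsLocalRing.ResidueField ↥A))) := by
    rw [hX]
    exact intL_of_isIntegral (IsLocalRing.ResidueField ↥A) N _ _ hy2
  obtain ⟨n, c, z, hyz, hz⟩ := hDesc N (IsLocalRing.ResidueField ↥(A.comap ι))
    (IsLocalRing.ResidueField ↥A)
    (coeffMap (Int.castRingHom (IsLocalRing.ResidueField ↥(A.comap ι))) xZ) m
    (y : LaurentSeries (IsLocalRing.ResidueField ↥A)) y.2 h1 h2
  -- lift each `z i`
  have hstep : ∀ i, ∃ f : ↥(gaussSub (A.comap ι) N),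
      (f : ModelField K₁ N) ∈
        chartClosure ↥(A.comap ι) (ModelField K₁ N) (xModel K₁ N x₀ hx₀) ∧
      (xModel K₁ N x₀ hx₀)⁻¹ ^ m * (f : ModelField K₁ N) ∈
        chartClosure ↥(A.comap ι) (ModelField K₁ N) (xModel K₁ N x₀ hx₀)⁻¹ ∧
      gaussRedSub (A.comap ι) N f = z i := by
    intro i
    obtain ⟨hzi, hz1, hz2⟩ := hz i
    obtain ⟨y₁, hy₁E, hy₁G, hy₁red⟩ := hSurj N K₁ (A.comap ι) (z i) hzi
    have hYred : gaussRedSub (A.comap ι) N
        (⟨⟨y₁, hy₁E⟩, hy₁G⟩ : ↥(gaussSub (A.comap ι) N)) = z i := hy₁red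
    obtain ⟨f, hf1, hf2, hf3⟩ := modelLift (A.comap ι) N hϖ
      (xSub K₁ (A.comap ι) N x₀ xZ hxZ hx₀) hxne m hG hCeq hsub (hm₀ m hm)
      (⟨⟨y₁, hy₁E⟩, hy₁G⟩ : ↥(gaussSub (A.comap ι) N))
      (by rw [gaussRedSub_xSub, hYred]; exact hz1)
      (by rw [gaussRedSub_xSub, hYred]; exact hz2)
    exact ⟨f, hf1, hf2, hf3.trans hYred⟩
  choose f hf1 hf2 hf3 using hstep
  have hc : ∀ i, ∃ a : ↥A, IsLocalRing.residue ↥A a = c i :=
    fun i => IsLocalRing.residue_surjective (c i)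
  choose a ha using hc
  obtain ⟨hmem, hred⟩ := combine_gauss A N a
    (fun i => klBc ι (modularFunctionFieldFull N) (f i : ModelField K₁ N))
    (fun i => transport_mem ι A N (f i))
  have hkl := klBc_xModel K₁ ι N x₀ xZ hxZ hx₀ xL hxL
  refine ⟨_, hmem, ?_, ?_, ?_⟩
  · rw [hred, hyz]
    refine Finset.sum_congr rfl fun i _ => ?_
    rw [ha i, transport_red ι A N (f i), hf3 i]
    rfl
  · refine combine_integral _ _ _ fun i => ?_
    have := transport_integral ι A N (xModel K₁ N x₀ hx₀) (f i : ModelField K₁ N) (hf1 i)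
    rw [hkl] at this
    exact this
  · rw [Finset.mul_sum]
    have e : ∀ i, xL⁻¹ ^ m *
        (algebraMap QBar ↥(modularFunctionFieldBar N) (a i : QBar) *
          klBc ι (modularFunctionFieldFull N) (f i : ModelField K₁ N)) =
        algebraMap QBar ↥(modularFunctionFieldBar N) (a i : QBar) *
          klBc ι (modularFunctionFieldFull N)
            ((xModel K₁ N x₀ hx₀)⁻¹ ^ m * (f i : ModelField K₁ N)) := by
      intro i
      rw [map_mul, map_pow, map_inv₀, hkl]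
      ring
    rw [Finset.sum_congr rfl fun i _ => e i]
    refine combine_integral _ _ _ fun i => ?_
    have := transport_integral ι A N (xModel K₁ N x₀ hx₀)⁻¹
      ((xModel K₁ N x₀ hx₀)⁻¹ ^ m * (f i : ModelField K₁ N)) (hf2 i)
    rw [map_inv₀, hkl] at this
    exact this

end Fermat.Agent.H9.E6

end
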