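import Fermat.Agent.H9.E6.LiftGen
import Fermat.Agent.H3.KLCover
import Fermat.Agent.H4.E6.Desc
import Fermat.Agent.H66.E6.ModelRedSurj
import Fermat.Agent.H96.E6.ResFinite
import Fermat.Agent.H5.E6.ResAlgebraic
import Fermat.Agent.H89.KLGauss
import Fermat.Agent.H89.ESDA3AlgClosed

/-!
# E6 : the lifting property for a general coordinate, all generic inputs plugged in (helper9)

`liftGen` : `LiftAt N A xL xk` from the four model statements for the coordinate `x₀`
(transcendence, good basis, branch data at some `M ≠ 0`, Gauss closure = Gauss ring).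
-/

set_option autoImplicit false
set_option linter.unusedSectionVars false
set_option linter.style.haveILetI false

noncomputable section

namespace Fermat.Agent.H9.E6

open Polynomial ModularCurve AlgebraicCurve
open Fermat.Agent.H22.KL
open Fermat.Agent.H93.KL (QBar)

/-- **LIFT**, general coordinate, from the model statements. -/
theorem liftGen (N : ℕ) [NeZero N] (ℓ : ℕ) [Fact ℓ.Prime] (M : ℕ) (hM : M ≠ 0)
    (x₀ : LaurentSeries ℚ) (xZ : LaurentSeries ℤ)
    (hxZ : coeffMap (Int.castRingHom ℚ) xZ = x₀) (hx₀ : x₀ ∈ modularFunctionFieldFull N)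
    (hord : ∀ (k : Type) [Field k], (coeffMap (Int.castRingHom k) xZ).order ≠ 0)
    (hTr : ModelTranscendentalStatement N x₀) (hGB : ModelGoodBasisStatement N ℓ x₀)
    (hBR : ModelBranchStatement N ℓ x₀ M) (hGauss : ModelGaussStatement N ℓ x₀)
    (A : ValuationSubring QBar) (hA : A.LiesOverPrime ℓ)
    (xL : ↥(modularFunctionFieldBar N))
    (hxL : (xL : LaurentSeries QBar) = coeffMap (Int.castRingHom QBar) xZ)
    (xk : ↥(modularFunctionFieldFullC (IsLocalRing.ResidueField ↥A) N))
    (hxk : (xk : LaurentSeries (IsLocalRing.ResidueField ↥A)) =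
      coeffMap (Int.castRingHom (IsLocalRing.ResidueField ↥A)) xZ) :
    LiftAt N A xL xk := by
  haveI : IsAlgClosed (IsLocalRing.ResidueField ↥A) :=
    Fermat.Agent.H89.isAlgClosed_residueField A
  haveI : NeZero ((M : ℕ) : QBar) := ⟨Nat.cast_ne_zero.mpr hM⟩
  obtain ⟨ζ, hζ⟩ := HasEnoughRootsOfUnity.exists_primitiveRoot QBar M
  have halg : Algebra.IsAlgebraic ℚ QBar := AlgebraicClosure.isAlgebraic ℚ
  haveI : FiniteDimensional ℚ ↥(IntermediateField.adjoin ℚ ({ζ} : Set QBar)) :=
    IntermediateField.finiteDimensional_adjoin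
      (fun x _ => (Algebra.IsAlgebraic.isAlgebraic (R := ℚ) x).isIntegral)
  have hζmem : ζ ∈ IntermediateField.adjoin ℚ ({ζ} : Set QBar) :=
    IntermediateField.subset_adjoin ℚ _ (Set.mem_singleton ζ)
  have hζ' : IsPrimitiveRoot
      (⟨ζ, hζmem⟩ : ↥(IntermediateField.adjoin ℚ ({ζ} : Set QBar))) M :=
    IsPrimitiveRoot.of_map_of_injective
      (f := algebraMap ↥(IntermediateField.adjoin ℚ ({ζ} : Set QBar)) QBar) hζ
      (algebraMap ↥(IntermediateField.adjoin ℚ ({ζ} : Set QBar)) QBar).injective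
  exact liftGen_core Fermat.Agent.H3.KLCover.twoChartLift Fermat.Agent.H4.E6.specialFibreDescent
    Fermat.Agent.H66.E6.modelRedSurj Fermat.Agent.H96.E6.resFinite
    Fermat.Agent.H5.E6.resAlgebraic Fermat.Agent.H89.gaussClosureStatement N ℓ M
    x₀ xZ hxZ hx₀ hord hTr hGB hBR hGauss A hA
    ↥(IntermediateField.adjoin ℚ ({ζ} : Set QBar))
    (algebraMap ↥(IntermediateField.adjoin ℚ ({ζ} : Set QBar)) QBar) ⟨_, hζ'⟩
    xL hxL xk hxk

end Fermat.Agent.H9.E6

end
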