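import Fermat.Agent.H9.E6.LiftCore

/-!
# E6 : the lifting statement over an abstract number field (helper9)
-/

set_option autoImplicit false
set_option linter.unusedSectionVars false
set_option linter.style.haveILetI false

noncomputable section

namespace Fermat.Agent.H9.E6

open Polynomial ModularCurve AlgebraicCurve
open Fermat.Agent.H22.KL
open Fermat.Agent.H66
open Fermat.Agent.H87.KL (evX)
open Fermat.Agent.H93.KL (klBc QBar)
open Fermat.Agent.H91.KLNorm (IntModPi)

theorem klBc_jModel (K₁ : Type) [Field K₁] [Algebra ℚ K₁] (ι : K₁ →+* QBar) (N : ℕ) [NeZero N] :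
    klBc ι (modularFunctionFieldFull N) (jModel K₁ N) = Fermat.Agent.H23.jBar N := by
  apply Subtype.ext
  show coeffMap ι (coeffEmb K₁ jq) = coeffEmb QBar jq
  rw [coeffEmb, coeffMap_coeffMap]
  exact coeffMap_congr (RingHom.ext fun c => by simp) jq

theorem exists_poly_of_algebraic (K₁ : Type) [Field K₁] [Algebra ℚ K₁] (ι : K₁ →+* QBar)
    (y : QBar) : ∃ p : Polynomial K₁, p ≠ 0 ∧ Polynomial.eval₂ ι y p = 0 := by
  obtain ⟨p₀, hp₀, hp⟩ := (AlgebraicClosure.isAlgebraic ℚ).isAlgebraic y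
  refine ⟨p₀.map (algebraMap ℚ K₁), ?_, ?_⟩
  · exact (Polynomial.map_ne_zero_iff (algebraMap ℚ K₁).injective).2 hp₀
  · rw [Polynomial.eval₂_map]
    have e : ι.comp (algebraMap ℚ K₁) = algebraMap ℚ QBar := RingHom.ext fun c => by simp
    rw [e]
    exact hp

theorem numberField_of_fd (K₁ : Type) [Field K₁] [Algebra ℚ K₁]
    [hfd : FiniteDimensional ℚ K₁] : NumberField K₁ := by
  have : CharZero K₁ := algebraRat.charZero K₁
  refine @NumberField.mk K₁ _ inferInstance ?_
  convert hfd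
  exact Subsingleton.elim _ _

set_option maxHeartbeats 1600000 in
/-- **LIFT over an abstract number field** `ι : K₁ → ℚ̄` containing a primitive `M`-th root of
unity. -/
theorem liftJ_core (hLift : TwoChartLiftStatement) (hDesc : SpecialFibreDescentStatement)
    (hSurj : ModelRedSurjStatement) (hFin : ResFiniteStatement) (hAlg : ResAlgebraicStatement)
    (hGC : GaussClosureStatement)
    (N : ℕ) [NeZero N] (ℓ : ℕ) [Fact ℓ.Prime] (M : ℕ)
    (hTr : ModelTranscendentalStatement N jq) (hGB : ModelGoodBasisStatement N ℓ jq)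
    (hBR : ModelBranchStatement N ℓ jq M) (hGauss : ModelGaussStatement N ℓ jq)
    (A : ValuationSubring QBar) (hA : A.LiesOverPrime ℓ)
    [IsAlgClosed (IsLocalRing.ResidueField ↥A)]
    (K₁ : Type) [Field K₁] [Algebra ℚ K₁] [FiniteDimensional ℚ K₁] (ι : K₁ →+* QBar)
    (hζ : ∃ ζ : K₁, IsPrimitiveRoot ζ M) :
    ∃ m₀ : ℕ, ∀ m : ℕ, m₀ ≤ m →
      ∀ y : ↥(modularFunctionFieldFullC (IsLocalRing.ResidueField ↥A) N),
        IsIntegral (Algebra.adjoin (IsLocalRing.ResidueField ↥A)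
          {(⟨jqModC (IsLocalRing.ResidueField ↥A), jqModC_mem_full _ N⟩ :
            ↥(modularFunctionFieldFullC (IsLocalRing.ResidueField ↥A) N))}) y →
        IsIntegral (Algebra.adjoin (IsLocalRing.ResidueField ↥A)
          {(⟨jqModC (IsLocalRing.ResidueField ↥A), jqModC_mem_full _ N⟩ :
            ↥(modularFunctionFieldFullC (IsLocalRing.ResidueField ↥A) N))⁻¹})
          ((⟨jqModC (IsLocalRing.ResidueField ↥A), jqModC_mem_full _ N⟩ :
            ↥(modularFunctionFieldFullC (IsLocalRing.ResidueField ↥A) N))⁻¹ ^ m * y) →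
        ∃ (u : ↥(modularFunctionFieldBar N))
          (hu : (u : LaurentSeries (AlgebraicClosure ℚ)) ∈ vGaussRing A),
          vGaussRed A ⟨(u : LaurentSeries (AlgebraicClosure ℚ)), hu⟩ =
            (y : LaurentSeries (IsLocalRing.ResidueField ↥A)) ∧
          IsIntegral (Algebra.adjoin (AlgebraicClosure ℚ) {Fermat.Agent.H23.jBar N}) u ∧
          IsIntegral (Algebra.adjoin (AlgebraicClosure ℚ) {(Fermat.Agent.H23.jBar N)⁻¹})
            ((Fermat.Agent.H23.jBar N)⁻¹ ^ m * u) := by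
  classical
  have hℓ : ℓ.Prime := Fact.out
  haveI : NumberField K₁ := numberField_of_fd K₁
  have hℓL : ((ℓ : ℕ) : QBar) ≠ 0 := Nat.cast_ne_zero.mpr hℓ.ne_zero
  haveI hDVR : IsDiscreteValuationRing ↥(A.comap ι) :=
    Fermat.Agent.H93.KL.comap_isDiscreteValuationRing ι A hℓL hA
  obtain ⟨ϖ, hϖ⟩ := IsDiscreteValuationRing.exists_irreducible ↥(A.comap ι)
  letI := modelAlgebra K₁ (A.comap ι) N
  haveI := modelAlgebra_isScalarTower K₁ (A.comap ι) N
  have hnu : ¬ IsUnit ((ℓ : ℕ) : ↥(A.comap ι)) := by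
    have h1 := Fermat.Agent.H93.KL.natCast_mem_nonunits_comap ι A hA
    rw [ValuationSubring.mem_nonunits_iff_exists_mem_maximalIdeal] at h1
    obtain ⟨hmem, hmax⟩ := h1
    rw [IsLocalRing.mem_maximalIdeal, mem_nonunits_iff] at hmax
    intro hu
    apply hmax
    have e : (⟨(ℓ : K₁), hmem⟩ : ↥(A.comap ι)) = ((ℓ : ℕ) : ↥(A.comap ι)) := Subtype.ext (by simp)
    rw [e]
    exact hu
  have hx₁ : ((jModel K₁ N : ModelField K₁ N) : LaurentSeries K₁) = coeffEmb K₁ jq := rfl
  have htr : Transcendental ↥(A.comap ι) (jModel K₁ N) := hTr K₁ ↥(A.comap ι) (jModel K₁ N) hx₁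
  have hgb : GoodBasis ↥(A.comap ι) (ModelField K₁ N) ϖ (jModel K₁ N) :=
    hGB K₁ ↥(A.comap ι) hnu ϖ hϖ (jModel K₁ N) hx₁
  obtain ⟨hbr, hbrInf⟩ := hBR K₁ ↥(A.comap ι) hnu hζ ϖ hϖ (jModel K₁ N) hx₁
  have hinj : Function.Injective (algebraMap ↥(A.comap ι) (ModelField K₁ N)) := by
    intro a b hab
    have h1 : algebraMap K₁ (ModelField K₁ N) (a : K₁) = algebraMap K₁ (ModelField K₁ N) (b : K₁) :=
      hab
    exact Subtype.ext ((algebraMap K₁ (ModelField K₁ N)).injective h1)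
  haveI : CharZero (ModelField K₁ N) :=
    charZero_of_injective_algebraMap (algebraMap K₁ (ModelField K₁ N)).injective
  obtain ⟨m₀, hm₀⟩ := hLift ↥(A.comap ι) (ModelField K₁ N) hinj ϖ hϖ (jModel K₁ N) htr hgb hbr
    hbrInf
  have hG := hGauss K₁ (A.comap ι) hnu ϖ hϖ (jModel K₁ N) hx₁
  obtain ⟨hsub, -, hCeq⟩ := hGC ↥(A.comap ι) (ModelField K₁ N) hinj ϖ hϖ (jModel K₁ N) htr
  -- residue fields
  haveI : Finite (IsLocalRing.ResidueField ↥(A.comap ι)) := hFin K₁ QBar ι A ℓ hℓ hA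
  letI : Algebra (IsLocalRing.ResidueField ↥(A.comap ι)) (IsLocalRing.ResidueField ↥A) :=
    (resMap ι A).toAlgebra
  haveI : Algebra.IsAlgebraic (IsLocalRing.ResidueField ↥(A.comap ι))
      (IsLocalRing.ResidueField ↥A) := by
    have h := hAlg K₁ QBar ι (exists_poly_of_algebraic K₁ ι) A
    haveI : Algebra.IsIntegral (IsLocalRing.ResidueField ↥(A.comap ι))
        (IsLocalRing.ResidueField ↥A) := ⟨fun x => h x⟩
    exact Algebra.IsIntegral.isAlgebraic
  refine ⟨m₀, fun m hm y hy1 hy2 => ?_⟩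
  have hX : coeffMap (algebraMap (IsLocalRing.ResidueField ↥(A.comap ι))
      (IsLocalRing.ResidueField ↥A)) (jqModC (IsLocalRing.ResidueField ↥(A.comap ι))) =
      jqModC (IsLocalRing.ResidueField ↥A) := coeffMap_jqModC _
  have h1 : IntL (IsLocalRing.ResidueField ↥A)
      (coeffMap (algebraMap (IsLocalRing.ResidueField ↥(A.comap ι))
        (IsLocalRing.ResidueField ↥A)) (jqModC (IsLocalRing.ResidueField ↥(A.comap ι))))
      (y : LaurentSeries (IsLocalRing.ResidueField ↥A)) := by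
    rw [hX]
    exact intL_of_isIntegral (IsLocalRing.ResidueField ↥A) N _ y hy1
  have h2 : IntL (IsLocalRing.ResidueField ↥A)
      (coeffMap (algebraMap (IsLocalRing.ResidueField ↥(A.comap ι))
        (IsLocalRing.ResidueField ↥A)) (jqModC (IsLocalRing.ResidueField ↥(A.comap ι))))⁻¹
      ((coeffMap (algebraMap (IsLocalRing.ResidueField ↥(A.comap ι))
        (IsLocalRing.ResidueField ↥A)) (jqModC (IsLocalRing.ResidueField ↥(A.comap ι))))⁻¹ ^ m *
        (y : LaurentSeries (IsLocalRing.ResidueField ↥A))) := by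
    rw [hX]
    exact intL_of_isIntegral (IsLocalRing.ResidueField ↥A) N _ _ hy2
  obtain ⟨n, c, z, hyz, hz⟩ := hDesc N (IsLocalRing.ResidueField ↥(A.comap ι))
    (IsLocalRing.ResidueField ↥A) (jqModC (IsLocalRing.ResidueField ↥(A.comap ι))) m
    (y : LaurentSeries (IsLocalRing.ResidueField ↥A)) y.2 h1 h2
  -- lift each `z i`
  have hstep : ∀ i, ∃ f : ↥(gaussSub (A.comap ι) N),
      (f : ModelField K₁ N) ∈ chartClosure ↥(A.comap ι) (ModelField K₁ N) (jModel K₁ N) ∧
      (jModel K₁ N)⁻¹ ^ m * (f : ModelField K₁ N) ∈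
        chartClosure ↥(A.comap ι) (ModelField K₁ N) (jModel K₁ N)⁻¹ ∧
      gaussRedSub (A.comap ι) N f = z i := by
    intro i
    obtain ⟨hzi, hz1, hz2⟩ := hz i
    obtain ⟨y₁, hy₁E, hy₁G, hy₁red⟩ := hSurj N K₁ (A.comap ι) (z i) hzi
    have hYred : gaussRedSub (A.comap ι) N
        (⟨⟨y₁, hy₁E⟩, hy₁G⟩ : ↥(gaussSub (A.comap ι) N)) = z i := hy₁red
    obtain ⟨f, hf1, hf2, hf3⟩ := modelLift (A.comap ι) N hϖ (jSub K₁ (A.comap ι) N)
      (gaussRedSub_jSub_ne_zero K₁ (A.comap ι) N) m hG hCeq hsub (hm₀ m hm)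
      (⟨⟨y₁, hy₁E⟩, hy₁G⟩ : ↥(gaussSub (A.comap ι) N))
      (by rw [gaussRedSub_jSub, hYred]; exact hz1)
      (by rw [gaussRedSub_jSub, hYred]; exact hz2)
    exact ⟨f, hf1, hf2, hf3.trans hYred⟩
  choose f hf1 hf2 hf3 using hstep
  have hc : ∀ i, ∃ a : ↥A, IsLocalRing.residue ↥A a = c i :=
    fun i => IsLocalRing.residue_surjective (c i)
  choose a ha using hc
  obtain ⟨hmem, hred⟩ := combine_gauss A N a
    (fun i => klBc ι (modularFunctionFieldFull N) (f i : ModelField K₁ N))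
    (fun i => transport_mem ι A N (f i))
  refine ⟨_, hmem, ?_, ?_, ?_⟩
  · rw [hred, hyz]
    refine Finset.sum_congr rfl fun i _ => ?_
    rw [ha i, transport_red ι A N (f i), hf3 i]
    rfl
  · refine combine_integral _ _ _ fun i => ?_
    have := transport_integral ι A N (jModel K₁ N) (f i : ModelField K₁ N) (hf1 i)
    rw [klBc_jModel] at this
    exact this
  · rw [Finset.mul_sum]
    have e : ∀ i, (Fermat.Agent.H23.jBar N)⁻¹ ^ m *
        (algebraMap QBar ↥(modularFunctionFieldBar N) (a i : QBar) *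
          klBc ι (modularFunctionFieldFull N) (f i : ModelField K₁ N)) =
        algebraMap QBar ↥(modularFunctionFieldBar N) (a i : QBar) *
          klBc ι (modularFunctionFieldFull N) ((jModel K₁ N)⁻¹ ^ m * (f i : ModelField K₁ N)) := by
      intro i
      rw [map_mul, map_pow, map_inv₀, klBc_jModel]
      ring
    rw [Finset.sum_congr rfl fun i _ => e i]
    refine combine_integral _ _ _ fun i => ?_
    have := transport_integral ι A N (jModel K₁ N)⁻¹
      ((jModel K₁ N)⁻¹ ^ m * (f i : ModelField K₁ N)) (hf2 i)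
    rw [map_inv₀, klBc_jModel] at this
    exact this

end Fermat.Agent.H9.E6

end
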