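import Fermat.Agent.H9.E6.ModelRed
import Fermat.Agent.H91.KLNorm.PurityFull

/-!
# E6 : lifting at the level of the model (helper9)

`modelLift` : in the model `(K₁, A₁, E₁, x)`, given the two-chart lifting property for the
exponent `m`, every element `y` of the Gauss subring whose reduction `z` is integral over
`k₁[x̄]` and such that `x̄⁻ᵐ z` is integral over `k₁[x̄⁻¹]` has the same reduction as some
`f ∈ B(x)` with `x⁻ᵐ f ∈ B(x⁻¹)`.
-/

set_option autoImplicit false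
set_option linter.unusedSectionVars false

noncomputable section

namespace Fermat.Agent.H9.E6

open Polynomial ModularCurve
open Fermat.Agent.H22.KL
open Fermat.Agent.H66
open Fermat.Agent.H87.KL (evX)
open Fermat.Agent.H91.KLNorm (IntModPi)

variable {K₁ : Type} [Field K₁] [Algebra ℚ K₁] (A₁ : ValuationSubring K₁) (N : ℕ)

/-- the inverse of an element of the Gauss subring with nonzero reduction -/
theorem inv_mem_gaussSub {x : ↥(gaussSub A₁ N)} (hx : gaussRedSub A₁ N x ≠ 0) :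
    (x : ModelField K₁ N)⁻¹ ∈ gaussSub A₁ N := by
  rw [mem_gaussSub_iff]
  have h := inv_mem_vGaussRing A₁ (x := ⟨((x : ModelField K₁ N) : LaurentSeries K₁), x.2⟩) hx
  exact h

theorem gaussRedSub_inv {x : ↥(gaussSub A₁ N)} (hx : gaussRedSub A₁ N x ≠ 0) :
    gaussRedSub A₁ N ⟨(x : ModelField K₁ N)⁻¹, inv_mem_gaussSub A₁ N hx⟩ =
      (gaussRedSub A₁ N x)⁻¹ := by
  rw [gaussRedSub_apply]
  exact vGaussRed_inv A₁ (x := ⟨((x : ModelField K₁ N) : LaurentSeries K₁), x.2⟩) hx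

theorem residue_irreducible_eq_zero [IsDiscreteValuationRing ↥A₁] {ϖ : ↥A₁}
    (hϖ : Irreducible ϖ) : IsLocalRing.residue ↥A₁ ϖ = 0 := by
  rw [IsLocalRing.residue_eq_zero_iff, IsLocalRing.mem_maximalIdeal, mem_nonunits_iff]
  exact hϖ.not_isUnit

set_option maxHeartbeats 800000 in
/-- **Lifting at the level of the model.** -/
theorem modelLift [IsDiscreteValuationRing ↥A₁] {ϖ : ↥A₁} (hϖ : Irreducible ϖ)
    (x : ↥(gaussSub A₁ N)) (hxred : gaussRedSub A₁ N x ≠ 0) (m : ℕ)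
    (hGauss : letI := modelAlgebra K₁ A₁ N
      ∀ y : ModelField K₁ N, y ∈ gaussClosure ↥A₁ (ModelField K₁ N) ϖ (x : ModelField K₁ N) ↔
        (y : LaurentSeries K₁) ∈ vGaussRing A₁)
    (hCeq : letI := modelAlgebra K₁ A₁ N
      gaussClosure ↥A₁ (ModelField K₁ N) ϖ (x : ModelField K₁ N)⁻¹ =
        gaussClosure ↥A₁ (ModelField K₁ N) ϖ (x : ModelField K₁ N))
    (hsub : letI := modelAlgebra K₁ A₁ N
      ∀ y ∈ chartClosure ↥A₁ (ModelField K₁ N) (x : ModelField K₁ N),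
        y ∈ gaussClosure ↥A₁ (ModelField K₁ N) ϖ (x : ModelField K₁ N))
    (hlift : letI := modelAlgebra K₁ A₁ N
      ∀ y ∈ gaussClosure ↥A₁ (ModelField K₁ N) ϖ (x : ModelField K₁ N),
        IntModPi ↥A₁ (ModelField K₁ N) ϖ (x : ModelField K₁ N) y →
        IntModPi ↥A₁ (ModelField K₁ N) ϖ (x : ModelField K₁ N)⁻¹
          ((x : ModelField K₁ N)⁻¹ ^ m * y) →
        ∃ f ∈ chartClosure ↥A₁ (ModelField K₁ N) (x : ModelField K₁ N),
          (x : ModelField K₁ N)⁻¹ ^ m * f ∈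
            chartClosure ↥A₁ (ModelField K₁ N) (x : ModelField K₁ N)⁻¹ ∧
          PiDvdSet ↥A₁ (ModelField K₁ N) ϖ
            (gaussClosure ↥A₁ (ModelField K₁ N) ϖ (x : ModelField K₁ N)) (y - f))
    (y : ↥(gaussSub A₁ N))
    (h1 : IntL (IsLocalRing.ResidueField ↥A₁) (gaussRedSub A₁ N x) (gaussRedSub A₁ N y))
    (h2 : IntL (IsLocalRing.ResidueField ↥A₁) (gaussRedSub A₁ N x)⁻¹
      ((gaussRedSub A₁ N x)⁻¹ ^ m * gaussRedSub A₁ N y)) :
    letI := modelAlgebra K₁ A₁ N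
    ∃ f : ↥(gaussSub A₁ N),
      (f : ModelField K₁ N) ∈ chartClosure ↥A₁ (ModelField K₁ N) (x : ModelField K₁ N) ∧
      (x : ModelField K₁ N)⁻¹ ^ m * (f : ModelField K₁ N) ∈
        chartClosure ↥A₁ (ModelField K₁ N) (x : ModelField K₁ N)⁻¹ ∧
      gaussRedSub A₁ N f = gaussRedSub A₁ N y := by
  letI := modelAlgebra K₁ A₁ N
  -- the inverse coordinate
  set xi : ↥(gaussSub A₁ N) := ⟨(x : ModelField K₁ N)⁻¹, inv_mem_gaussSub A₁ N hxred⟩ with hxi
  have hxired : gaussRedSub A₁ N xi = (gaussRedSub A₁ N x)⁻¹ := gaussRedSub_inv A₁ N hxred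
  have hyC : (y : ModelField K₁ N) ∈
      gaussClosure ↥A₁ (ModelField K₁ N) ϖ (x : ModelField K₁ N) := (hGauss _).2 y.2
  -- integrality modulo `ϖ C` in the chart `x`
  have hI1 : IntModPi ↥A₁ (ModelField K₁ N) ϖ (x : ModelField K₁ N) (y : ModelField K₁ N) :=
    exists_monic_piDvdSet_of_intL A₁ N hϖ _ (fun z hz => (hGauss z).2 hz) x y h1
  -- integrality modulo `ϖ C` in the chart `x⁻¹`
  have h2' : IntL (IsLocalRing.ResidueField ↥A₁) (gaussRedSub A₁ N xi)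
      (gaussRedSub A₁ N (xi ^ m * y)) := by
    rw [map_mul, map_pow, hxired]
    exact h2
  have hI2 : IntModPi ↥A₁ (ModelField K₁ N) ϖ (x : ModelField K₁ N)⁻¹
      ((x : ModelField K₁ N)⁻¹ ^ m * (y : ModelField K₁ N)) := by
    have := exists_monic_piDvdSet_of_intL A₁ N hϖ
      (gaussClosure ↥A₁ (ModelField K₁ N) ϖ (x : ModelField K₁ N)⁻¹)
      (fun z hz => by rw [hCeq]; exact (hGauss z).2 hz) xi (xi ^ m * y) h2'
    exact this
  obtain ⟨f, hf, hf', c, hc, hyf⟩ := hlift _ hyC hI1 hI2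
  have hfG : f ∈ gaussSub A₁ N := (hGauss f).1 (hsub f hf)
  have hcG : c ∈ gaussSub A₁ N := (hGauss c).1 hc
  refine ⟨⟨f, hfG⟩, hf, hf', ?_⟩
  have e : y = ⟨f, hfG⟩ + constSub A₁ N ϖ * ⟨c, hcG⟩ := by
    apply Subtype.ext
    show (y : ModelField K₁ N) = f + algebraMap ↥A₁ (ModelField K₁ N) ϖ * c
    rw [← hyf]
    ring
  rw [e, map_add, map_mul, gaussRedSub_constSub, residue_irreducible_eq_zero A₁ hϖ, map_zero,
    zero_mul, add_zero]

end Fermat.Agent.H9.E6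

end
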