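import Fermat.Agent.H9.E6.Interfaces
import Fermat.Agent.H9.E6.RedCompat
import Fermat.Agent.H9.E6.IntLemmas
import Fermat.Agent.H87.KL.KumGauss

/-!
# E6 : the Gauss subring of the model field and reduction of polynomial expressions (helper9)

`K₁ ⊇ ℚ` a field, `A₁` a valuation subring, `E₁ = ModelField K₁ N ⊆ K₁((q))`.
* `gaussSub A₁ N : Subring E₁`, `gaussRedSub A₁ N : gaussSub →+* k₁((q))`.
* `eval₂_mem_gaussSub`, `gaussRedSub_eval₂` : polynomial expressions `P(w, y)`, `P ∈ A₁[X][T]`,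
  `w, y` in the Gauss subring, and their reductions.
* `intModPi_of_intL` : integrality of the reduction gives integrality modulo `ϖ C`.
-/

set_option autoImplicit false
set_option linter.unusedSectionVars false

noncomputable section

namespace Fermat.Agent.H9.E6

open Polynomial ModularCurve
open Fermat.Agent.H22.KL
open Fermat.Agent.H66
open Fermat.Agent.H87.KL (evX)

variable {K₁ : Type} [Field K₁] [Algebra ℚ K₁] (A₁ : ValuationSubring K₁) (N : ℕ)

/-- The Gauss subring of the model field. -/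
def gaussSub : Subring (ModelField K₁ N) :=
  (vGaussRing A₁).comap (algebraMap (ModelField K₁ N) (LaurentSeries K₁))

theorem mem_gaussSub_iff (y : ModelField K₁ N) :
    y ∈ gaussSub A₁ N ↔ (y : LaurentSeries K₁) ∈ vGaussRing A₁ := Iff.rfl

/-- The reduction map on the Gauss subring of the model field. -/
def gaussRedSub : ↥(gaussSub A₁ N) →+* LaurentSeries (IsLocalRing.ResidueField ↥A₁) :=
  (vGaussRed A₁).comp
    (RingHom.codRestrict
      ((algebraMap (ModelField K₁ N) (LaurentSeries K₁)).comp (gaussSub A₁ N).subtype)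
      (vGaussRing A₁) (fun x => x.2))

theorem gaussRedSub_apply (y : ↥(gaussSub A₁ N)) :
    gaussRedSub A₁ N y =
      vGaussRed A₁ ⟨((y : ModelField K₁ N) : LaurentSeries K₁), y.2⟩ := rfl

/-- constants of `A₁` in the Gauss subring -/
theorem algebraMap_mem_gaussSub (a : ↥A₁) :
    letI := modelAlgebra K₁ A₁ N
    algebraMap ↥A₁ (ModelField K₁ N) a ∈ gaussSub A₁ N := by
  letI := modelAlgebra K₁ A₁ N
  rw [mem_gaussSub_iff]
  exact algebraMap_mem_vGaussRing A₁ a.2

/-- the constants map `A₁ → G` -/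
def constSub : ↥A₁ →+* ↥(gaussSub A₁ N) :=
  letI := modelAlgebra K₁ A₁ N
  (algebraMap ↥A₁ (ModelField K₁ N)).codRestrict (gaussSub A₁ N)
    (fun a => algebraMap_mem_gaussSub A₁ N a)

theorem gaussRedSub_constSub (a : ↥A₁) :
    gaussRedSub A₁ N (constSub A₁ N a) =
      algebraMap (IsLocalRing.ResidueField ↥A₁) (LaurentSeries (IsLocalRing.ResidueField ↥A₁))
        (IsLocalRing.residue ↥A₁ a) := by
  rw [gaussRedSub_apply]
  exact vGaussRed_algebraMap A₁ a.2

/-- evaluation `A₁[X] → G`, `X ↦ w` -/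
def evSub (w : ↥(gaussSub A₁ N)) : (↥A₁)[X] →+* ↥(gaussSub A₁ N) :=
  Polynomial.eval₂RingHom (constSub A₁ N) w

theorem subtype_comp_evSub (w : ↥(gaussSub A₁ N)) :
    letI := modelAlgebra K₁ A₁ N
    (gaussSub A₁ N).subtype.comp (evSub A₁ N w) = evX (A := ↥A₁) (w : ModelField K₁ N) := by
  letI := modelAlgebra K₁ A₁ N
  refine Polynomial.ringHom_ext (fun a => ?_) ?_
  · simp only [RingHom.comp_apply, evSub, Polynomial.coe_eval₂RingHom, eval₂_C]
    rw [Fermat.Agent.H87.KL.evX_apply, aeval_C]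
    rfl
  · simp only [RingHom.comp_apply, evSub, Polynomial.coe_eval₂RingHom, eval₂_X]
    rw [Fermat.Agent.H87.KL.evX_apply, aeval_X]
    rfl

theorem gaussRedSub_comp_evSub (w : ↥(gaussSub A₁ N)) :
    (gaussRedSub A₁ N).comp (evSub A₁ N w) =
      ((aeval (gaussRedSub A₁ N w) :
          (IsLocalRing.ResidueField ↥A₁)[X] →ₐ[IsLocalRing.ResidueField ↥A₁]
            LaurentSeries (IsLocalRing.ResidueField ↥A₁)) :
        (IsLocalRing.ResidueField ↥A₁)[X] →+* LaurentSeries (IsLocalRing.ResidueField ↥A₁)).comp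
        (Polynomial.mapRingHom (IsLocalRing.residue ↥A₁)) := by
  refine Polynomial.ringHom_ext (fun a => ?_) ?_
  · simp only [RingHom.comp_apply, evSub, Polynomial.coe_eval₂RingHom, eval₂_C,
      Polynomial.coe_mapRingHom, Polynomial.map_C]
    rw [gaussRedSub_constSub]
    simp
  · simp only [RingHom.comp_apply, evSub, Polynomial.coe_eval₂RingHom, eval₂_X,
      Polynomial.coe_mapRingHom, Polynomial.map_X]
    simp

/-- polynomial expressions in elements of the Gauss subring -/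
theorem eval₂_evX_eq (w y : ↥(gaussSub A₁ N)) (P : (↥A₁)[X][X]) :
    letI := modelAlgebra K₁ A₁ N
    Polynomial.eval₂ (evX (A := ↥A₁) (w : ModelField K₁ N)) (y : ModelField K₁ N) P =
      ((Polynomial.eval₂ (evSub A₁ N w) y P : ↥(gaussSub A₁ N)) : ModelField K₁ N) := by
  letI := modelAlgebra K₁ A₁ N
  rw [← subtype_comp_evSub]
  exact (Polynomial.hom_eval₂ P (evSub A₁ N w) (gaussSub A₁ N).subtype y).symm

theorem gaussRedSub_eval₂ (w y : ↥(gaussSub A₁ N)) (P : (↥A₁)[X][X]) :
    gaussRedSub A₁ N (Polynomial.eval₂ (evSub A₁ N w) y P) =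
      Polynomial.eval₂
        ((aeval (gaussRedSub A₁ N w) :
          (IsLocalRing.ResidueField ↥A₁)[X] →ₐ[IsLocalRing.ResidueField ↥A₁]
            LaurentSeries (IsLocalRing.ResidueField ↥A₁)) :
          (IsLocalRing.ResidueField ↥A₁)[X] →+* LaurentSeries (IsLocalRing.ResidueField ↥A₁))
        (gaussRedSub A₁ N y)
        (P.map (Polynomial.mapRingHom (IsLocalRing.residue ↥A₁))) := by
  rw [Polynomial.hom_eval₂, gaussRedSub_comp_evSub, Polynomial.eval₂_map]


/-- **Integrality of the reduction gives integrality modulo `ϖ C`.**  `Cset` is any set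
containing the elements of `E₁` whose `q`-expansion lies in the Gauss ring. -/
theorem exists_monic_piDvdSet_of_intL [IsDiscreteValuationRing ↥A₁] {ϖ : ↥A₁}
    (hϖ : Irreducible ϖ) (Cset : Set (ModelField K₁ N))
    (hC : ∀ y : ModelField K₁ N, (y : LaurentSeries K₁) ∈ vGaussRing A₁ → y ∈ Cset)
    (w y : ↥(gaussSub A₁ N))
    (h : IntL (IsLocalRing.ResidueField ↥A₁) (gaussRedSub A₁ N w) (gaussRedSub A₁ N y)) :
    letI := modelAlgebra K₁ A₁ N
    ∃ P : (↥A₁)[X][X], P.Monic ∧
      PiDvdSet ↥A₁ (ModelField K₁ N) ϖ Cset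
        (Polynomial.eval₂ (evX (A := ↥A₁) (w : ModelField K₁ N)) (y : ModelField K₁ N) P) := by
  letI := modelAlgebra K₁ A₁ N
  obtain ⟨Pbar, hPm, hP⟩ := h
  have hsurj : Function.Surjective (Polynomial.mapRingHom (IsLocalRing.residue ↥A₁)) :=
    Polynomial.map_surjective _ IsLocalRing.residue_surjective
  obtain ⟨P, hPmap, -, hPmonic⟩ := Polynomial.lifts_and_natDegree_eq_and_monic
    (p := Pbar) ((Polynomial.mem_lifts Pbar).2 (Polynomial.map_surjective _ hsurj Pbar)) hPm
  refine ⟨P, hPmonic, ?_⟩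
  set v : ↥(gaussSub A₁ N) := Polynomial.eval₂ (evSub A₁ N w) y P with hv
  have hred : gaussRedSub A₁ N v = 0 := by
    rw [hv, gaussRedSub_eval₂, hPmap]
    exact hP
  rw [gaussRedSub_apply] at hred
  obtain ⟨y', hy', hvy⟩ := exists_eq_mul_of_vGaussRed_eq_zero A₁ hϖ _ hred
  have hϖ0 : (ϖ : K₁) ≠ 0 := fun h0 => hϖ.ne_zero (Subtype.ext h0)
  have hC0 : algebraMap K₁ (LaurentSeries K₁) (ϖ : K₁) ≠ 0 :=
    (map_ne_zero (algebraMap K₁ (LaurentSeries K₁))).2 hϖ0
  have hy'E : y' ∈ laurentBaseChange K₁ (modularFunctionFieldFull N) := by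
    have e : y' = (algebraMap K₁ (LaurentSeries K₁) (ϖ : K₁))⁻¹ *
        ((v : ModelField K₁ N) : LaurentSeries K₁) := by
      change ((v : ModelField K₁ N) : LaurentSeries K₁) = _ at hvy
      rw [hvy, ← mul_assoc, inv_mul_cancel₀ hC0, one_mul]
    rw [e]
    exact mul_mem (inv_mem ((laurentBaseChange K₁ (modularFunctionFieldFull N)).algebraMap_mem _))
      (v : ModelField K₁ N).2
  refine ⟨⟨y', hy'E⟩, hC _ hy', ?_⟩
  rw [eval₂_evX_eq]
  apply Subtype.ext
  exact hvy

end Fermat.Agent.H9.E6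

end
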