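import Fermat.Agent.H91.KLNorm.PurityFull
import Fermat.Agent.H33.KL.Glue
import Fermat.Agent.H22.ES.KLSetting2

/-!
# E6a : the two-chart lift (helper9)

Abstract setting of `Fermat.Agent.H22.KL` (`A` a discrete valuation ring, `E ⊇ A` a field,
`x ∈ E` a coordinate, `B(x)` = `chartClosure`, `C` = `gaussClosure`).

* `normalityFull_of_normalityAtFull` : local-global principle, full form
  (`B(x) / ϖ` is integrally closed in `C / ϖ`).
* `NormalityInfFullStatement`, `normalityInfFull_of_normalityAtFull` : the chart at infinity in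
  full (generalised) form.
* `serre_vanishing` : `B(x⁻¹)[x] = B(x) + xᵐ B(x⁻¹)` for `m ≥ m₀`.
* `TwoChartLiftStatement`, `twoChartLift_of` : **two-chart lift**.  For `m ≥ m₀`, every `y ∈ C`
  which is integral over `A[x]` modulo `ϖ C` and such that `x⁻ᵐ y` is integral over `A[x⁻¹]`
  modulo `ϖ C` is congruent modulo `ϖ C` to some `f ∈ B(x)` with `x⁻ᵐ f ∈ B(x⁻¹)`
  (i.e. every section of `O(m ∞)` on the normalised special fibre lifts to a section of
  `O(m ∞)` on the normal model).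
-/

set_option autoImplicit false

noncomputable section

namespace Fermat.Agent.H9.E6

open Polynomial
open Fermat.Agent.H22.KL
open Fermat.Agent.H67.KLConn (PiDvd)
open Fermat.Agent.H91.KLNorm (IntModPi NormalityAtFullStatement NormalityFullStatement)
open Fermat.Agent.H33.KLGlue

/-- **local-global principle, full form.** -/
theorem normalityFull_of_normalityAtFull (hN : NormalityAtFullStatement)
    (hG : GaussClosureStatement) : NormalityFullStatement := by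
  intro A _ _ _ E _ _ _ hinj ϖ hϖ x hx hGB hBr y hy hint
  obtain ⟨hsub, hring, -⟩ := hG A E hinj ϖ hϖ x hx
  have hadd : ∀ a ∈ gaussClosure A E ϖ x, ∀ b ∈ gaussClosure A E ϖ x,
      a + b ∈ gaussClosure A E ϖ x := fun a ha b hb => (hring a ha b hb).1
  have hmul : ∀ a ∈ gaussClosure A E ϖ x, ∀ b ∈ gaussClosure A E ϖ x,
      a * b ∈ gaussClosure A E ϖ x := fun a ha b hb => (hring a ha b hb).2.1
  apply one_mem_glueIdeal (hsub := hsub) (hadd := hadd) (hmul := hmul)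
  by_contra hI
  obtain ⟨g, hgm, hgirr, hg⟩ := exists_monic_of_ne_top hϖ _ hI
    (C_mem_glueIdeal (hsub := hsub) (hadd := hadd) (hmul := hmul) hy)
  obtain ⟨s, hs, b, hb, hbc⟩ := hN A E hinj ϖ hϖ x hx hGB g hgm hgirr (hBr g hgm hgirr) y hy hint
  exact hs (hg s ⟨b, hb, hbc⟩)

/-- **chart at infinity, full (generalised) form**: if `z ∈ C` is integral over `A[x⁻¹]`
modulo `ϖ C` and `x⁻ᵏ z` is congruent to an element of `B(x⁻¹)` for some `k`, then `z` is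
congruent to an element of `B(x⁻¹)`. -/
def NormalityInfFullStatement : Prop :=
  ∀ (A : Type) [CommRing A] [IsDomain A] [IsDiscreteValuationRing A]
    (E : Type) [Field E] [Algebra A E] [CharZero E],
    Function.Injective (algebraMap A E) →
    ∀ (ϖ : A), Irreducible ϖ → ∀ (x : E), Transcendental A x →
      GoodBasis A E ϖ x →
      BranchHypAt A E ϖ x⁻¹ (X : A[X]) →
      ∀ z ∈ gaussClosure A E ϖ x, IntModPi A E ϖ x⁻¹ z →
        (∃ (k : ℕ), ∃ b ∈ chartClosure A E x⁻¹,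
          PiDvdSet A E ϖ (gaussClosure A E ϖ x) (x⁻¹ ^ k * z - b)) →
        ∃ b ∈ chartClosure A E x⁻¹, PiDvdSet A E ϖ (gaussClosure A E ϖ x) (z - b)

theorem normalityInfFull_of_normalityAtFull (hN : NormalityAtFullStatement)
    (hG : GaussClosureStatement) (hI : GoodBasisInvStatement) : NormalityInfFullStatement := by
  intro A _ _ _ E _ _ _ hinj ϖ hϖ x hx hGB hBr z hz hint hzb
  obtain ⟨k, b, hb, hzb⟩ := hzb
  have hx' : Transcendental A x⁻¹ := transcendental_inv hx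
  obtain ⟨-, hring, hCeq⟩ := hG A E hinj ϖ hϖ x hx
  obtain ⟨hsub', -, -⟩ := hG A E hinj ϖ hϖ x⁻¹ hx'
  rw [hCeq] at hsub'
  have hadd : ∀ a ∈ gaussClosure A E ϖ x, ∀ b ∈ gaussClosure A E ϖ x,
      a + b ∈ gaussClosure A E ϖ x := fun a ha b hb => (hring a ha b hb).1
  have hmul : ∀ a ∈ gaussClosure A E ϖ x, ∀ b ∈ gaussClosure A E ϖ x,
      a * b ∈ gaussClosure A E ϖ x := fun a ha b hb => (hring a ha b hb).2.1
  apply one_mem_glueIdeal (x₁ := x⁻¹) (hsub := hsub') (hadd := hadd) (hmul := hmul)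
  have hGB' := hI A E hinj ϖ hϖ x hx hGB
  have hXirr : Irreducible ((X : A[X]).map (IsLocalRing.residue A)) := by
    rw [Polynomial.map_X]
    exact irreducible_X
  have hz' : z ∈ gaussClosure A E ϖ x⁻¹ := by rw [hCeq]; exact hz
  obtain ⟨s, hs, b', hb', hbc'⟩ :=
    hN A E hinj ϖ hϖ x⁻¹ hx' hGB' X monic_X hXirr hBr z hz' hint
  rw [hCeq] at hbc'
  have hu : IsUnit (s.coeff 0) := isUnit_coeff_zero_of_outside hϖ s hs
  refine eq_top_of_pow_mem _ k ?_ s ⟨b', hb', hbc'⟩ hu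
  refine ⟨b, hb, ?_⟩
  rw [map_pow, aeval_X]
  exact hzb


/-! ## Serre vanishing -/

section Serre

variable {A : Type} [CommRing A] {E : Type} [Field E] [Algebra A E]

lemma x_mem_chartClosure (x : E) : x ∈ chartClosure A E x := by
  have h := aeval_mem_chartClosure (A := A) x (X : A[X])
  rwa [aeval_X] at h

lemma x_pow_mem_chartClosure (x : E) (n : ℕ) : x ^ n ∈ chartClosure A E x :=
  (chartClosure A E x).pow_mem (x_mem_chartClosure x) n

lemma pow_mul_mem_of_le {x t : E} {k j : ℕ} (hkj : k ≤ j)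
    (h : x ^ k * t ∈ chartClosure A E x) : x ^ j * t ∈ chartClosure A E x := by
  have e : x ^ j * t = x ^ (j - k) * (x ^ k * t) := by
    rw [← mul_assoc, ← pow_add, Nat.sub_add_cancel hkj]
  rw [e]
  exact (chartClosure A E x).mul_mem (x_pow_mem_chartClosure x _) h

/-- `a(x⁻¹) xᵐ ∈ A[x]` if `deg a ≤ m`. -/
lemma aeval_inv_mul_pow_mem {x : E} (hx0 : x ≠ 0) (a : A[X]) (m : ℕ) (ha : a.natDegree ≤ m) :
    aeval x⁻¹ a * x ^ m ∈ chartClosure A E x := by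
  have h := aeval_mul_inv_pow_mem (A := A) (inv_ne_zero hx0) a m ha
  rw [inv_inv] at h
  exact chartRing_le_chartClosure x h

/-- **Serre vanishing**: if `B(x⁻¹)` is generated over `A[x⁻¹]` by the finite set `s` and
`xᵐ t ∈ B(x)` for all `t ∈ s`, then `x^M B(x⁻¹) ⊆ B(x) + xᵐ B(x⁻¹)` for all `M`. -/
theorem serre_vanishing [Nontrivial A] {x : E} (hx0 : x ≠ 0)
    (s : Finset E) (hs : ∀ t ∈ s, t ∈ chartClosure A E x⁻¹)
    (hgen : ∀ r ∈ chartClosure A E x⁻¹, ∃ p : E → A[X], r = ∑ t ∈ s, aeval x⁻¹ (p t) * t)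
    (m : ℕ) (hm : ∀ t ∈ s, x ^ m * t ∈ chartClosure A E x)
    (M : ℕ) (e : E) (he : e ∈ chartClosure A E x⁻¹) :
    ∃ b₁ ∈ chartClosure A E x, ∃ c₁ ∈ chartClosure A E x⁻¹, x ^ M * e = b₁ + x ^ m * c₁ := by
  rcases lt_or_ge M m with hMm | hMm
  · refine ⟨0, (chartClosure A E x).zero_mem, x⁻¹ ^ (m - M) * e,
      (chartClosure A E x⁻¹).mul_mem (x_pow_mem_chartClosure x⁻¹ _) he, ?_⟩
    have e1 : x ^ m = x ^ M * x ^ (m - M) := by
      rw [← pow_add]; congr 1; omega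
    have e2 : x ^ (m - M) * x⁻¹ ^ (m - M) = 1 := by
      rw [← mul_pow, mul_inv_cancel₀ hx0, one_pow]
    calc x ^ M * e = x ^ M * (x ^ (m - M) * x⁻¹ ^ (m - M)) * e := by rw [e2, mul_one]
      _ = 0 + x ^ m * (x⁻¹ ^ (m - M) * e) := by rw [e1]; ring
  · obtain ⟨p, hp⟩ := hgen e he
    set n := M - m + 1 with hn
    have hXn : (X ^ n : A[X]).Monic := monic_X_pow n
    have hXn1 : (X ^ n : A[X]) ≠ 1 := by
      intro h
      have := congrArg natDegree h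
      rw [natDegree_X_pow, natDegree_one] at this
      omega
    have hdeg : ∀ t, (p t %ₘ X ^ n).natDegree ≤ M - m := by
      intro t
      have := natDegree_modByMonic_lt (p t) hXn hXn1
      rw [natDegree_X_pow] at this
      omega
    have hsplit : ∀ t, aeval x⁻¹ (p t) =
        aeval x⁻¹ (p t %ₘ X ^ n) + x⁻¹ ^ n * aeval x⁻¹ (p t /ₘ X ^ n) := by
      intro t
      conv_lhs => rw [← modByMonic_add_div (p t) (X ^ n)]
      rw [map_add, map_mul, map_pow, aeval_X]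
    have e1 : x ^ M = x ^ (M - m) * x ^ m := by
      rw [← pow_add]; congr 1; omega
    have e2 : x ^ M * x⁻¹ ^ n = x ^ m * x⁻¹ := by
      have h3 : x ^ (M - m) * x⁻¹ ^ (M - m) = 1 := by
        rw [← mul_pow, mul_inv_cancel₀ hx0, one_pow]
      rw [hn, pow_succ, e1]
      calc x ^ (M - m) * x ^ m * (x⁻¹ ^ (M - m) * x⁻¹)
          = (x ^ (M - m) * x⁻¹ ^ (M - m)) * (x ^ m * x⁻¹) := by ring
        _ = x ^ m * x⁻¹ := by rw [h3, one_mul]
    refine ⟨∑ t ∈ s, (aeval x⁻¹ (p t %ₘ X ^ n) * x ^ (M - m)) * (x ^ m * t), ?_,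
      ∑ t ∈ s, (x⁻¹ * aeval x⁻¹ (p t /ₘ X ^ n)) * t, ?_, ?_⟩
    · refine (chartClosure A E x).sum_mem fun t ht => ?_
      exact (chartClosure A E x).mul_mem (aeval_inv_mul_pow_mem hx0 _ _ (hdeg t)) (hm t ht)
    · refine (chartClosure A E x⁻¹).sum_mem fun t ht => ?_
      refine (chartClosure A E x⁻¹).mul_mem ((chartClosure A E x⁻¹).mul_mem
        (x_mem_chartClosure x⁻¹) (aeval_mem_chartClosure x⁻¹ _)) (hs t ht)
    · rw [hp, Finset.mul_sum, Finset.mul_sum, ← Finset.sum_add_distrib]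
      refine Finset.sum_congr rfl fun t _ => ?_
      rw [hsplit t]
      calc x ^ M * ((aeval x⁻¹ (p t %ₘ X ^ n) + x⁻¹ ^ n * aeval x⁻¹ (p t /ₘ X ^ n)) * t)
          = x ^ M * aeval x⁻¹ (p t %ₘ X ^ n) * t
            + (x ^ M * x⁻¹ ^ n) * aeval x⁻¹ (p t /ₘ X ^ n) * t := by ring
        _ = aeval x⁻¹ (p t %ₘ X ^ n) * x ^ (M - m) * (x ^ m * t)
            + x ^ m * (x⁻¹ * aeval x⁻¹ (p t /ₘ X ^ n) * t) := by
          rw [e2, e1]; ring

end Serre


/-! ## The two-chart lift -/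

/-- **TWO-CHART LIFT**: for `m ≥ m₀`, every `y ∈ C` integral over `A[x]` modulo `ϖ C` such that
`x⁻ᵐ y` is integral over `A[x⁻¹]` modulo `ϖ C` is congruent modulo `ϖ C` to some `f ∈ B(x)`
with `x⁻ᵐ f ∈ B(x⁻¹)`. -/
def TwoChartLiftStatement : Prop :=
  ∀ (A : Type) [CommRing A] [IsDomain A] [IsDiscreteValuationRing A]
    (E : Type) [Field E] [Algebra A E] [CharZero E],
    Function.Injective (algebraMap A E) →
    ∀ (ϖ : A), Irreducible ϖ → ∀ (x : E), Transcendental A x →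
      GoodBasis A E ϖ x →
      (∀ g : A[X], g.Monic → Irreducible (g.map (IsLocalRing.residue A)) →
        BranchHypAt A E ϖ x g) →
      BranchHypAt A E ϖ x⁻¹ (X : A[X]) →
      ∃ m₀ : ℕ, ∀ m : ℕ, m₀ ≤ m → ∀ y ∈ gaussClosure A E ϖ x,
        IntModPi A E ϖ x y → IntModPi A E ϖ x⁻¹ (x⁻¹ ^ m * y) →
        ∃ f ∈ chartClosure A E x, x⁻¹ ^ m * f ∈ chartClosure A E x⁻¹ ∧
          PiDvdSet A E ϖ (gaussClosure A E ϖ x) (y - f)

theorem twoChartLift_of (hNF : NormalityFullStatement) (hNI : NormalityInfFullStatement)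
    (hT : LemmaTStatement) (hG : GaussClosureStatement) (hI : GoodBasisInvStatement)
    (hB : ChartBasicsStatement) : TwoChartLiftStatement := by
  classical
  intro A _ _ _ E _ _ _ hinj ϖ hϖ x hx hGB hBr hBrInf
  have hx' : Transcendental A x⁻¹ := transcendental_inv hx
  have hx0 : x ≠ 0 := ne_zero_of_transcendental hx
  have hxx : x * x⁻¹ = 1 := mul_inv_cancel₀ hx0
  obtain ⟨hsub, hring, hCeq⟩ := hG A E hinj ϖ hϖ x hx
  obtain ⟨hsub', -, -⟩ := hG A E hinj ϖ hϖ x⁻¹ hx'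
  rw [hCeq] at hsub'
  have hadd : ∀ a ∈ gaussClosure A E ϖ x, ∀ b ∈ gaussClosure A E ϖ x,
      a + b ∈ gaussClosure A E ϖ x := fun a ha b hb => (hring a ha b hb).1
  have hmul : ∀ a ∈ gaussClosure A E ϖ x, ∀ b ∈ gaussClosure A E ϖ x,
      a * b ∈ gaussClosure A E ϖ x := fun a ha b hb => (hring a ha b hb).2.1
  have hneg : ∀ a ∈ gaussClosure A E ϖ x, -a ∈ gaussClosure A E ϖ x :=
    fun a ha => (hring a ha a ha).2.2
  have hxinvC : ∀ n : ℕ, x⁻¹ ^ n ∈ gaussClosure A E ϖ x :=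
    fun n => hsub' _ (x_pow_mem_chartClosure x⁻¹ n)
  have hGB' := hI A E hinj ϖ hϖ x hx hGB
  -- chart basics in both charts
  obtain ⟨n, b, -, -⟩ := id hGB
  obtain ⟨n', b', -, -⟩ := id hGB'
  obtain ⟨-, h2, h3, -⟩ := hB A E hinj ϖ hϖ x hx ⟨n, ⟨b⟩⟩
  obtain ⟨⟨s, hs, hgen⟩, -, -, -⟩ := hB A E hinj ϖ hϖ x⁻¹ hx' ⟨n', ⟨b'⟩⟩
  -- the bound `m₀`
  let kf : E → ℕ := fun r =>
    if h : r ∈ chartClosure A E x⁻¹ then Classical.choose (h3 r h) else 0
  have hkf : ∀ t ∈ s, x ^ kf t * t ∈ chartClosure A E x := by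
    intro t ht
    have h := Classical.choose_spec (h3 t (hs t ht))
    simp only [kf, dif_pos (hs t ht)]
    exact h
  refine ⟨s.sup kf, ?_⟩
  intro m hm y hy hyint hzint
  have hmt : ∀ t ∈ s, x ^ m * t ∈ chartClosure A E x := fun t ht =>
    pow_mul_mem_of_le ((Finset.le_sup ht).trans hm) (hkf t ht)
  -- chart `x`
  obtain ⟨b₀, hb₀, c₀, hc₀, hyb⟩ := hNF A E hinj ϖ hϖ x hx hGB hBr y hy hyint
  -- chart `x⁻¹`
  obtain ⟨k, hk⟩ := h2 b₀ hb₀
  have hzC : x⁻¹ ^ m * y ∈ gaussClosure A E ϖ x := hmul _ (hxinvC m) _ hy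
  obtain ⟨c, hc, c₀', hc₀', hzc⟩ := hNI A E hinj ϖ hϖ x hx hGB hBrInf
    (x⁻¹ ^ m * y) hzC hzint
    ⟨k, x⁻¹ ^ m * (x⁻¹ ^ k * b₀),
      (chartClosure A E x⁻¹).mul_mem (x_pow_mem_chartClosure x⁻¹ m) hk,
      x⁻¹ ^ (k + m) * c₀, hmul _ (hxinvC _) _ hc₀, by
        calc x⁻¹ ^ k * (x⁻¹ ^ m * y) - x⁻¹ ^ m * (x⁻¹ ^ k * b₀)
            = x⁻¹ ^ (k + m) * (y - b₀) := by rw [pow_add]; ring
          _ = algebraMap A E ϖ * (x⁻¹ ^ (k + m) * c₀) := by rw [hyb]; ring⟩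
  -- the difference `d = b₀ - xᵐ c` : `x⁻⁽ᵐ⁺ᵏ⁾ d ∈ B(x⁻¹) ∩ ϖ C`
  have hpow : ∀ j : ℕ, x ^ j * x⁻¹ ^ j = 1 := fun j => by
    rw [← mul_pow, hxx, one_pow]
  have hd1 : x⁻¹ ^ m * (x⁻¹ ^ k * b₀) - x⁻¹ ^ k * c ∈ chartClosure A E x⁻¹ :=
    (chartClosure A E x⁻¹).sub_mem
      ((chartClosure A E x⁻¹).mul_mem (x_pow_mem_chartClosure x⁻¹ m) hk)
      ((chartClosure A E x⁻¹).mul_mem (x_pow_mem_chartClosure x⁻¹ k) hc)
  have hd2 : PiDvdSet A E ϖ (gaussClosure A E ϖ x⁻¹)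
      (x⁻¹ ^ m * (x⁻¹ ^ k * b₀) - x⁻¹ ^ k * c) := by
    rw [hCeq]
    refine ⟨x⁻¹ ^ k * (c₀' + -(x⁻¹ ^ m * c₀)),
      hmul _ (hxinvC k) _ (hadd _ hc₀' _ (hneg _ (hmul _ (hxinvC m) _ hc₀))), ?_⟩
    have e1 : x⁻¹ ^ m * (x⁻¹ ^ k * b₀) - x⁻¹ ^ k * c
        = x⁻¹ ^ k * ((x⁻¹ ^ m * y - c) - x⁻¹ ^ m * (y - b₀)) := by ring
    rw [e1, hzc, hyb]
    ring
  obtain ⟨e, he, hde⟩ := hT A E hinj ϖ hϖ x⁻¹ hx' _ hd1 hd2
  rw [pow_one, Algebra.smul_def] at hde
  -- Serre vanishing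
  obtain ⟨b₁, hb₁, c₁, hc₁, hbc⟩ := serre_vanishing hx0 s hs hgen m hmt (m + k) e he
  -- `b₀ - xᵐ c = ϖ (b₁ + xᵐ c₁)`
  have hkey : b₀ - x ^ m * c = algebraMap A E ϖ * (b₁ + x ^ m * c₁) := by
    rw [← hbc]
    have e2 : b₀ - x ^ m * c
        = x ^ (m + k) * (x⁻¹ ^ m * (x⁻¹ ^ k * b₀) - x⁻¹ ^ k * c) := by
      have h4 := hpow m
      have h5 := hpow k
      calc b₀ - x ^ m * c
          = (x ^ m * x⁻¹ ^ m) * (x ^ k * x⁻¹ ^ k) * b₀
            - x ^ m * (x ^ k * x⁻¹ ^ k) * c := by rw [h4, h5]; ring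
        _ = x ^ (m + k) * (x⁻¹ ^ m * (x⁻¹ ^ k * b₀) - x⁻¹ ^ k * c) := by
          rw [pow_add]; ring
    rw [e2, hde]
    ring
  refine ⟨b₀ - algebraMap A E ϖ * b₁, ?_, ?_, ?_⟩
  · refine (chartClosure A E x).sub_mem hb₀ ?_
    rw [← Algebra.smul_def]
    exact (chartClosure A E x).smul_mem hb₁ _
  · have e3 : x⁻¹ ^ m * (b₀ - algebraMap A E ϖ * b₁) = c + algebraMap A E ϖ * c₁ := by
      have h4 : x⁻¹ ^ m * x ^ m = 1 := by rw [mul_comm]; exact hpow m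
      have e4 : b₀ - algebraMap A E ϖ * b₁ = x ^ m * (c + algebraMap A E ϖ * c₁) := by
        have := hkey
        linear_combination this
      rw [e4, ← mul_assoc, h4, one_mul]
    rw [e3]
    refine (chartClosure A E x⁻¹).add_mem hc ?_
    rw [← Algebra.smul_def]
    exact (chartClosure A E x⁻¹).smul_mem hc₁ _
  · refine ⟨c₀ + b₁, hadd _ hc₀ _ (hsub _ hb₁), ?_⟩
    have : y - (b₀ - algebraMap A E ϖ * b₁) = (y - b₀) + algebraMap A E ϖ * b₁ := by ring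
    rw [this, hyb]
    ring

/-- the two-chart lift from the local full normality statement. -/
theorem twoChartLift_of_normalityAtFull (hN : NormalityAtFullStatement)
    (hT : LemmaTStatement) (hG : GaussClosureStatement) (hI : GoodBasisInvStatement)
    (hB : ChartBasicsStatement) : TwoChartLiftStatement :=
  twoChartLift_of (normalityFull_of_normalityAtFull hN hG)
    (normalityInfFull_of_normalityAtFull hN hG hI) hT hG hI hB

end Fermat.Agent.H9.E6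

end
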